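import Fermat.Agent.G1.A.Gen
import Fermat.Agent.G1.A.ModDefs
import Fermat.Agent.GR.B.ModFrac

/-!
# G1-B, file K3 (port of GR/B/ModFrac.lean): `FF1 ℂ M` is the field of fractions of the ring of
holomorphic modular functions for `Γ₁(M)`

The only deep input, (M1) "the `q`-expansion of a holomorphic modular function for `Γ₁(M)` lies in
`FF1 ℂ M`", is used in HYPOTHESIS FORM: `MemFF1 M` (proved in G1-A).
-/

set_option autoImplicit false

open UpperHalfPlane ModularCurve Matrix.SpecialLinearGroup CongruenceSubgroup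
open scoped MatrixGroups Manifold

namespace Fermat.Agent.G1.B

open Fermat.Agent.S24 Fermat.Agent.S28 Fermat.Agent.G1.A

variable {M : ℕ}

/-- INTERFACE (M1): the `q`-expansion of a holomorphic modular function for `Γ₁(M)` lies in the
function field. -/
def MemFF1 (M : ℕ) : Prop :=
  ∀ (f : ℍ → ℂ) (s : LaurentSeries ℂ), IsModFun M f → IsExp 1 f s → s ∈ FF1 ℂ M

/-- constructor (holomorphy follows from the condition at the cusp `∞`). -/
theorem IsModFun.intro {h : ℍ → ℂ} (inv : ∀ γ ∈ Gamma1 M, ∀ τ, h (γ • τ) = h τ)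
    (cusp : ∀ γ : SL(2, ℤ), (fun τ => h (γ • τ)) ∈ MerInf M) : IsModFun M h := by
  refine ⟨?_, inv, cusp⟩
  have := cusp 1
  simp only [one_smul] at this
  exact this.1

theorem IsModFun.of_Gamma0 {f : ℍ → ℂ} (hf : GR.A.IsModFun M f) : IsModFun M f :=
  ⟨hf.1, fun γ hγ τ => hf.2.1 γ (Gamma1_in_Gamma0 M hγ) τ, hf.2.2⟩

theorem IsModFun.const (c : ℂ) : IsModFun M (fun _ => c) :=
  IsModFun.of_Gamma0 (GR.A.isModFun_const M c)

theorem IsModFun.zero : IsModFun M 0 := IsModFun.const 0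

theorem IsModFun.one : IsModFun M 1 := IsModFun.const 1

theorem IsModFun.add {f g : ℍ → ℂ} (hf : IsModFun M f) (hg : IsModFun M g) :
    IsModFun M (f + g) :=
  IsModFun.intro (fun γ hγ τ => by simp only [Pi.add_apply, hf.2.1 γ hγ, hg.2.1 γ hγ])
    (fun γ => (MerInf M).add_mem (hf.2.2 γ) (hg.2.2 γ))

theorem IsModFun.mul {f g : ℍ → ℂ} (hf : IsModFun M f) (hg : IsModFun M g) :
    IsModFun M (f * g) :=
  IsModFun.intro (fun γ hγ τ => by simp only [Pi.mul_apply, hf.2.1 γ hγ, hg.2.1 γ hγ])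
    (fun γ => (MerInf M).mul_mem (hf.2.2 γ) (hg.2.2 γ))

theorem IsModFun.neg {f : ℍ → ℂ} (hf : IsModFun M f) : IsModFun M (-f) :=
  IsModFun.intro (fun γ hγ τ => by simp only [Pi.neg_apply, hf.2.1 γ hγ])
    (fun γ => (MerInf M).neg_mem (hf.2.2 γ))

theorem IsModFun.pow {f : ℍ → ℂ} (hf : IsModFun M f) (n : ℕ) : IsModFun M (f ^ n) := by
  induction n with
  | zero => simpa using IsModFun.one (M := M)
  | succ n ih => rw [pow_succ]; exact IsModFun.mul ih hf

theorem T_mem_Gamma1 (M : ℕ) : ModularGroup.T ∈ Gamma1 M := by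
  rw [Gamma1_mem]
  simp [ModularGroup.T]

theorem IsModFun.mem_MerInf {f : ℍ → ℂ} (hf : IsModFun M f) : f ∈ MerInf M := by
  have := hf.2.2 1
  simpa using this

theorem IsModFun.mem_MerInf_one [NeZero M] {f : ℍ → ℂ} (hf : IsModFun M f) : f ∈ MerInf 1 :=
  S24.degree_mem_MerInf_one M f (IsModFun.mem_MerInf hf) (hf.2.1 _ (T_mem_Gamma1 M))

/-- a holomorphic modular function has a `q`-expansion. -/
theorem IsModFun.exists_isExp [NeZero M] {f : ℍ → ℂ} (hf : IsModFun M f) :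
    ∃ s : LaurentSeries ℂ, IsExp 1 f s :=
  ⟨_, GR.A.isExp_laurentHom 1 ⟨f, IsModFun.mem_MerInf_one hf⟩⟩

/-- `j(dτ)`, `d ∣ M`, is a holomorphic modular function for `Γ₁(M)`. -/
theorem isModFun_jdfun [NeZero M] (d : ℕ) [NeZero d] (hd : d ∣ M) : IsModFun M (S24.jdfun d) :=
  IsModFun.of_Gamma0 (GR.B.isModFun_jdfun d hd)

/-- `e_b(τ)/Δ(dτ)`, `d ∣ M`, is a holomorphic modular function for `Γ₁(M)`. -/
theorem isModFun_genF [NeZero M] (b : ℤ) (d : ℕ) [NeZero d] (hd : d ∣ M) :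
    IsModFun M (genF M b d) :=
  ⟨mdiff_genF M b d, fun γ hγ τ => genF_smul_of_mem_Gpm M b d hd γ (Gamma1_le_Gpm M hγ) τ,
    fun γ => genF_smul_mem_MerInf M b d hd γ⟩

/-- every polynomial in the generators is the expansion of a holomorphic modular function. -/
theorem exists_isModFun_of_mem_adjoin (M : ℕ) [NeZero M] {x : LaurentSeries ℂ}
    (hx : x ∈ Algebra.adjoin ℂ (divisorExpansionsC ℂ M ∪ eisGens ℂ M)) :
    ∃ f, IsModFun M f ∧ IsExp 1 f x := by
  induction hx using Algebra.adjoin_induction with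
  | mem x hx =>
    rcases hx with hx | hx
    · obtain ⟨d, hd0, hd, rfl⟩ := hx
      exact ⟨S24.jdfun d, isModFun_jdfun d hd, GR.B.isExp_jdfun d⟩
    · obtain ⟨d, hd0, b, hd, hb, rfl⟩ := hx
      obtain ⟨b', rfl⟩ := ZMod.intCast_surjective b
      refine ⟨genF M b' d, isModFun_genF b' d hd, isExp_genF M b' ?_ d⟩
      intro hdvd
      exact hb ((ZMod.intCast_zmod_eq_zero_iff_dvd _ _).mpr hdvd)
  | algebraMap c =>
    refine ⟨fun _ => c, IsModFun.const c, ?_⟩
    rw [algebraMap_laurentSeries_eq_single]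
    exact S28.isExp_C 1 c
  | add x y _ _ hx hy =>
    obtain ⟨f, hf, hfe⟩ := hx
    obtain ⟨g, hg, hge⟩ := hy
    exact ⟨f + g, IsModFun.add hf hg, hfe.add hge⟩
  | mul x y _ _ hx hy =>
    obtain ⟨f, hf, hfe⟩ := hx
    obtain ⟨g, hg, hge⟩ := hy
    exact ⟨f * g, IsModFun.mul hf hg, hfe.mul hge⟩

/-- every element of the function field is a quotient of expansions of holomorphic modular
functions. -/
theorem exists_modFun_frac [NeZero M] {u : LaurentSeries ℂ} (hu : u ∈ FF1 ℂ M) :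
    ∃ (a b : ℍ → ℂ) (fa fb : LaurentSeries ℂ), IsModFun M a ∧ IsModFun M b ∧ IsExp 1 a fa ∧
      IsExp 1 b fb ∧ fb ≠ 0 ∧ u * fb = fa := by
  obtain ⟨a, ha, b, hb, hab⟩ := IntermediateField.mem_adjoin_iff_div.mp hu
  by_cases hb0 : b = 0
  · refine ⟨0, 1, 0, 1, IsModFun.zero, IsModFun.one, isExp_zero 1, isExp_one 1,
      one_ne_zero, ?_⟩
    rw [hab, hb0, div_zero, zero_mul]
  · obtain ⟨fa, hfa, hea⟩ := exists_isModFun_of_mem_adjoin M ha
    obtain ⟨fb, hfb, heb⟩ := exists_isModFun_of_mem_adjoin M hb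
    exact ⟨fa, fb, _, _, hfa, hfb, hea, heb, hb0, by rw [hab, div_mul_cancel₀ _ hb0]⟩

end Fermat.Agent.G1.B
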