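import Fermat.Agent.G1.B.Reps
import Fermat.Agent.GR.B.Concrete

/-!
# G1-B, file 2: the correspondence `T_p` (`p ∤ M`) on `Γ₁(M)` and conjugation by `Γ₀(M)`

Representatives of `T_p`: `(1 j; 0 p)`, `j ∈ ℤ/p`, and `σ_p (p 0; 0 1)` with `σ_p ∈ Γ₀(M)`,
`σ_p ≡ diag(p⁻¹, p) mod M`.

Everything is deduced from the Prelude lemma `heckeRep_mul` (used for `GR.B.repsT`) and from the
congruence `heckeRep_mul_entry` between the lower right entries.
-/

set_option autoImplicit false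

open CongruenceSubgroup Matrix.SpecialLinearGroup UpperHalfPlane
open scoped MatrixGroups
open P2MW.S_ModularForm_heckeT_slash_eq_self_of_mem_Gamma0.ModularForm.HeckeSlashInvariance

namespace Fermat.Agent.G1.B

variable {M : ℕ}

/-- lower right entry of `heckeRep p x`: `1` at `∞`, `p` elsewhere. -/
def lowR (p : ℕ) (x : OnePoint (ZMod p)) : ℤ := x.elim 1 (fun _ => (p : ℤ))

/-- upper left entry of `heckeRep p x`: `p` at `∞`, `1` elsewhere. -/
def upL (p : ℕ) (x : OnePoint (ZMod p)) : ℤ := x.elim (p : ℤ) (fun _ => 1)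

/-- the entries of `heckeRep p x`. -/
theorem Concrete_heckeRep_val (p : ℕ) [Fact p.Prime] (x : OnePoint (ZMod p)) :
    ∃ b : ℤ, ((heckeRep p x : GL (Fin 2) ℝ) : Matrix (Fin 2) (Fin 2) ℝ) =
      !![((upL p x : ℤ) : ℝ), ((b : ℤ) : ℝ); 0, ((lowR p x : ℤ) : ℝ)] := by
  have hp : p ≠ 0 := (Fact.out : p.Prime).ne_zero
  induction x using OnePoint.rec with
  | infty =>
    refine ⟨0, ?_⟩
    rw [heckeRep_infty, ModularForm.val_heckeDiagMatrix hp]
    simp [upL, lowR]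
  | coe j =>
    refine ⟨(j.val : ℤ), ?_⟩
    rw [heckeRep_coe, ModularForm.val_heckeMatrix hp]
    simp [upL, lowR]

/-- compare the lower right entries modulo `M` in `β_x γ = γ' β_{x'}` (all matrices are upper
triangular modulo `M`).  [take the `(1,1)` entry of the identity of real matrices: it is an identity
between integers: `lowR x * γ 1 1 = γ' 1 0 * (β_{x'}) 0 1 + γ' 1 1 * lowR x'`.] -/
theorem heckeRep_mul_entry {p : ℕ} [Fact p.Prime] {g g' : SL(2, ℤ)} {x x' : OnePoint (ZMod p)}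
    (hg' : (M : ℤ) ∣ g' 1 0)
    (h : heckeRep p x * mapGL ℝ g = mapGL ℝ g' * heckeRep p x') :
    ((lowR p x * g 1 1 : ℤ) : ZMod M) = ((g' 1 1 * lowR p x' : ℤ) : ZMod M) := by
  obtain ⟨b, hb⟩ := Concrete_heckeRep_val p x
  obtain ⟨b', hb'⟩ := Concrete_heckeRep_val p x'
  have h1 := congrArg (fun A : GL (Fin 2) ℝ => (A : Matrix (Fin 2) (Fin 2) ℝ) 1 1) h
  simp only [Matrix.GeneralLinearGroup.coe_mul, Matrix.mul_apply, Fin.sum_univ_two, hb, hb',
    mapGL_apply] at h1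
  simp at h1
  have h2 : lowR p x * g 1 1 = g' 1 0 * b' + g' 1 1 * lowR p x' := by exact_mod_cast h1
  obtain ⟨c, hc⟩ := hg'
  rw [h2, hc]
  push_cast
  simp

/-- an element of `Γ₀(M)` with lower right entry `≡ d`.  [`d` prime to `M`: Bezout `a d - b M = 1`,
`σ = (a b; M d)`.] -/
theorem exists_sigma (M d : ℕ) (h : d.Coprime M) :
    ∃ σ : SL(2, ℤ), σ ∈ Gamma0 M ∧ ((σ 1 1 : ℤ) : ZMod M) = (d : ZMod M) := by
  obtain ⟨a, b, hab⟩ := Nat.isCoprime_iff_coprime.2 h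
  have hdet : (!![a, -b; (M : ℤ), (d : ℤ)] : Matrix (Fin 2) (Fin 2) ℤ).det = 1 := by
    rw [Matrix.det_fin_two_of]
    linear_combination hab
  let σ : SL(2, ℤ) := ⟨!![a, -b; (M : ℤ), (d : ℤ)], hdet⟩
  have h10 : σ 1 0 = (M : ℤ) := rfl
  have h11 : σ 1 1 = (d : ℤ) := rfl
  refine ⟨σ, ?_, ?_⟩
  · rw [Gamma0_mem, h10]
    simp
  · rw [h11]
    simp

/-- `σ_p`. -/
noncomputable def sigmaP (M p : ℕ) [Fact p.Prime] (hpM : ¬ p ∣ M) : SL(2, ℤ) :=
  (exists_sigma M p (((Nat.Prime.coprime_iff_not_dvd Fact.out).2 hpM))).choose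

theorem sigmaP_mem (M p : ℕ) [Fact p.Prime] (hpM : ¬ p ∣ M) : sigmaP M p hpM ∈ Gamma0 M :=
  (exists_sigma M p (((Nat.Prime.coprime_iff_not_dvd Fact.out).2 hpM))).choose_spec.1

theorem sigmaP_entry (M p : ℕ) [Fact p.Prime] (hpM : ¬ p ∣ M) :
    ((sigmaP M p hpM 1 1 : ℤ) : ZMod M) = (p : ZMod M) :=
  (exists_sigma M p (((Nat.Prime.coprime_iff_not_dvd Fact.out).2 hpM))).choose_spec.2

/-- the twist: `σ_p` at `∞`, `1` elsewhere. -/
noncomputable def twist (M p : ℕ) [Fact p.Prime] (hpM : ¬ p ∣ M) (x : OnePoint (ZMod p)) :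
    SL(2, ℤ) := x.elim (sigmaP M p hpM) (fun _ => 1)

theorem twist_mem (M p : ℕ) [Fact p.Prime] (hpM : ¬ p ∣ M) (x : OnePoint (ZMod p)) :
    twist M p hpM x ∈ Gamma0 M := by
  induction x using OnePoint.rec with
  | infty => exact sigmaP_mem M p hpM
  | coe j => exact one_mem _

/-- `d(twist x) * lowR x ≡ p`. -/
theorem twist_entry (M p : ℕ) [Fact p.Prime] (hpM : ¬ p ∣ M) (x : OnePoint (ZMod p)) :
    ((twist M p hpM x 1 1 * lowR p x : ℤ) : ZMod M) = (p : ZMod M) := by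
  induction x using OnePoint.rec with
  | infty =>
    have h := sigmaP_entry M p hpM
    show ((sigmaP M p hpM 1 1 * 1 : ℤ) : ZMod M) = (p : ZMod M)
    rw [mul_one, h]
  | coe j =>
    show (((1 : SL(2, ℤ)) 1 1 * (p : ℤ) : ℤ) : ZMod M) = (p : ZMod M)
    simp

/-- the lower right entry is multiplicative on `Γ₀(M)`. -/
theorem Gamma0_entry_mul {g g' : SL(2, ℤ)} (hg : g ∈ Gamma0 M) :
    (((g * g') 1 1 : ℤ) : ZMod M) = ((g 1 1 : ℤ) : ZMod M) * ((g' 1 1 : ℤ) : ZMod M) := by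
  rw [Gamma0_mem] at hg
  rw [Matrix.SpecialLinearGroup.coe_mul, Matrix.mul_apply, Fin.sum_univ_two]
  push_cast
  rw [hg, zero_mul, zero_add]

/-- an element of `Γ₀(M)` with lower right entry `≡ 1` lies in `Γ₁(M)`. -/
theorem mem_Gamma1_of_entry {g : SL(2, ℤ)} (hg : g ∈ Gamma0 M) (h : ((g 1 1 : ℤ) : ZMod M) = 1) :
    g ∈ Gamma1 M := by
  rw [Gamma0_mem] at hg
  rw [Gamma1_mem]
  refine ⟨?_, h, hg⟩
  have hdet := congrArg (Int.cast : ℤ → ZMod M) (det_eq g)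
  push_cast at hdet
  rw [h, hg, mul_one, mul_zero, sub_zero] at hdet
  exact hdet

/-- the cocycle of `T_p` on `Γ₁(M)` takes its values in `Γ₁(M)`.
[`d(result) = d(twist x) d(g') / d(twist x')`, `d(g') lowR x' = lowR x d(g) = lowR x`,
`d(twist x) lowR x = p = d(twist x') lowR x'`, and `p`, `lowR x'` are units mod `M`.] -/
theorem twist_mul_mem {p : ℕ} [Fact p.Prime] (hpM : ¬ p ∣ M) {g g' : SL(2, ℤ)}
    {x x' : OnePoint (ZMod p)} (hg : g ∈ Gamma1 M) (hg' : (M : ℤ) ∣ g' 1 0)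
    (h : heckeRep p x * mapGL ℝ g = mapGL ℝ g' * heckeRep p x') :
    twist M p hpM x * g' * (twist M p hpM x')⁻¹ ∈ Gamma1 M := by
  have hg'0 : g' ∈ Gamma0 M := GR.B.mem_Gamma0_of_dvd hg'
  have hx := twist_mem M p hpM x
  have hx' := twist_mem M p hpM x'
  have hR : twist M p hpM x * g' * (twist M p hpM x')⁻¹ ∈ Gamma0 M :=
    mul_mem (mul_mem hx hg'0) (inv_mem hx')
  refine mem_Gamma1_of_entry hR ?_
  have e1 := Gamma0_entry_mul (g' := twist M p hpM x') hR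
  rw [inv_mul_cancel_right, Gamma0_entry_mul hx] at e1
  have e2 := heckeRep_mul_entry hg' h
  have e3 := twist_entry M p hpM x
  have e4 := twist_entry M p hpM x'
  have e5 : ((g 1 1 : ℤ) : ZMod M) = 1 := ((Gamma1_mem M _).mp hg).2.1
  push_cast at e2 e3 e4
  rw [e5, mul_one] at e2
  have hu : IsUnit ((p : ℕ) : ZMod M) :=
    (ZMod.isUnit_iff_coprime p M).2 ((Nat.Prime.coprime_iff_not_dvd Fact.out).2 hpM)
  apply hu.mul_right_cancel
  rw [one_mul]
  calc (((twist M p hpM x * g' * (twist M p hpM x')⁻¹) 1 1 : ℤ) : ZMod M) * (p : ZMod M)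
      = (((twist M p hpM x * g' * (twist M p hpM x')⁻¹) 1 1 : ℤ) : ZMod M) *
          (((twist M p hpM x' 1 1 : ℤ) : ZMod M) * ((lowR p x' : ℤ) : ZMod M)) := by rw [e4]
    _ = ((twist M p hpM x 1 1 : ℤ) : ZMod M) * (((g' 1 1 : ℤ) : ZMod M) *
          ((lowR p x' : ℤ) : ZMod M)) := by rw [← mul_assoc, ← e1, mul_assoc]
    _ = (p : ZMod M) := by rw [← e2, e3]

theorem dvd_of_mem_Gamma1 (γ : Gamma1 M) : (M : ℤ) ∣ (γ : SL(2, ℤ)) 1 0 :=
  (ZMod.intCast_zmod_eq_zero_iff_dvd _ _).mp ((Gamma1_mem M _).mp γ.2).2.2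

theorem Concrete_rel {G : Type*} [Group G] (t b g g' t' b' : G) (h : b * g = g' * b') :
    t * b * g = t * g' * t'⁻¹ * (t' * b') := by
  rw [mul_assoc, h]
  group

/-- The correspondence `T_p`, `p ∤ M`, on `Γ₁(M)`. -/
noncomputable def repsT1 (p : ℕ) [Fact p.Prime] (hpM : ¬ p ∣ M) : Reps1 M where
  ι := OnePoint (ZMod p)
  fin := inferInstance
  α x := mapGL ℝ (twist M p hpM x) * heckeRep p x
  det_pos := by
    intro x
    rw [map_mul, Matrix.SpecialLinearGroup.det_mapGL, one_mul]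
    induction x using OnePoint.rec with
    | infty => exact ModularForm.det_heckeDiagMatrix_pos p
    | coe j => exact ModularForm.det_heckeMatrix_pos p _
  perm γ := MulAction.toPerm (redMatrix p (γ : SL(2, ℤ)))
  coc γ x := ⟨twist M p hpM x *
      (heckeRep_mul hpM (γ : SL(2, ℤ)) (dvd_of_mem_Gamma1 γ) x).choose *
      (twist M p hpM (redMatrix p (γ : SL(2, ℤ)) • x))⁻¹,
    twist_mul_mem hpM γ.2 (heckeRep_mul hpM (γ : SL(2, ℤ)) (dvd_of_mem_Gamma1 γ) x).choose_spec.1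
      (heckeRep_mul hpM (γ : SL(2, ℤ)) (dvd_of_mem_Gamma1 γ) x).choose_spec.2⟩
  rel γ x := by
    have h := (heckeRep_mul hpM (γ : SL(2, ℤ)) (dvd_of_mem_Gamma1 γ) x).choose_spec.2
    simp only [MulAction.toPerm_apply, map_mul, map_inv]
    exact Concrete_rel _ _ _ _ _ _ h
  perm_mul γ γ' x := by
    simp only [MulAction.toPerm_apply, Subgroup.coe_mul, GR.B.redMatrix_mul, mul_smul]

@[simp] theorem repsT1_α (p : ℕ) [Fact p.Prime] (hpM : ¬ p ∣ M) (x : OnePoint (ZMod p)) :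
    (repsT1 p hpM).α x = mapGL ℝ (twist M p hpM x) * heckeRep p x := rfl

end Fermat.Agent.G1.B
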