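import Fermat.Agent.G1.B.CharSoft
import Fermat.Agent.G1.B.Concrete
import Fermat.Agent.G1.Diamond

/-!
# G1-B, file `Diamond` (NEW): the diamond automorphisms of `FF1 ℂ M`, analytically

`σ ∈ Γ₀(M)` normalises `Γ₁(M)`, so `h ↦ h ∘ σ` is an automorphism of the ring of holomorphic modular
functions for `Γ₁(M)`, whose field of fractions is `FF1 ℂ M` (`MemFF1`, `exists_modFun_frac`).
-/

set_option autoImplicit false

open UpperHalfPlane ModularCurve Matrix.SpecialLinearGroup CongruenceSubgroup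
open scoped MatrixGroups Manifold

namespace Fermat.Agent.G1.B

open Fermat.Agent.S24 Fermat.Agent.S28 Fermat.Agent.G1.A

variable {M : ℕ}

/-- composition with `σ`. -/
noncomputable def compS (σ : SL(2, ℤ)) (h : ℍ → ℂ) : ℍ → ℂ := fun τ => h (σ • τ)

/-- `Γ₁(M)` is normal in `Γ₀(M)` (entries modulo `M`: `σ` is upper triangular, `γ` unipotent). -/
theorem conjS_mem_Gamma1 {σ γ : SL(2, ℤ)} (hσ : σ ∈ Gamma0 M) (hγ : γ ∈ Gamma1 M) :
    σ * γ * σ⁻¹ ∈ Gamma1 M := by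
  have hγ0 : γ ∈ Gamma0 M := Gamma1_in_Gamma0 M hγ
  have hσi : σ⁻¹ ∈ Gamma0 M := inv_mem hσ
  refine mem_Gamma1_of_entry (mul_mem (mul_mem hσ hγ0) hσi) ?_
  rw [Gamma0_entry_mul (mul_mem hσ hγ0), Gamma0_entry_mul hσ, ((Gamma1_mem M γ).1 hγ).2.1, mul_one,
    ← Gamma0_entry_mul hσ, mul_inv_cancel]
  simp

/-- `h(σ γ τ) = h((σ γ σ⁻¹) σ τ) = h(σ τ)`; cusps: `(h ∘ σ)(g τ) = h((σ g) τ)`;
`MDiff`: `S28.mdiff_comp_smul`. -/
theorem isModFun_compS {σ : SL(2, ℤ)} (hσ : σ ∈ Gamma0 M) {h : ℍ → ℂ} (hh : IsModFun M h) :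
    IsModFun M (compS σ h) := by
  refine ⟨S28.mdiff_comp_smul hh.1 σ, fun γ hγ τ => ?_, fun g => ?_⟩
  · show h (σ • γ • τ) = h (σ • τ)
    have e : σ • γ • τ = (σ * γ * σ⁻¹) • σ • τ := by
      rw [← mul_smul, ← mul_smul, inv_mul_cancel_right]
    rw [e, hh.2.1 _ (conjS_mem_Gamma1 hσ hγ)]
  · have e : (fun τ : ℍ => compS σ h (g • τ)) = fun τ : ℍ => h ((σ * g) • τ) := by
      funext τ
      show h (σ • g • τ) = _
      rw [mul_smul]
    rw [e]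
    exact hh.2.2 (σ * g)

/-- `δ` is the automorphism of the function field induced by `h ↦ h ∘ σ`. -/
def Realises (M : ℕ) (σ : SL(2, ℤ)) (δ : FF1 ℂ M ≃ₐ[ℂ] FF1 ℂ M) : Prop :=
  ∀ (h : ℍ → ℂ) (x : FF1 ℂ M), IsModFun M h → IsExp 1 h (x : LaurentSeries ℂ) →
    IsExp 1 (compS σ h) ((δ x : FF1 ℂ M) : LaurentSeries ℂ)

/-- the ring of holomorphic modular functions for `Γ₁(M)`. -/
def modRing (M : ℕ) : Subring (ℍ → ℂ) where
  carrier := {h | IsModFun M h}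
  mul_mem' := fun ha hb => IsModFun.mul ha hb
  one_mem' := IsModFun.one
  add_mem' := fun ha hb => IsModFun.add ha hb
  zero_mem' := IsModFun.zero
  neg_mem' := fun ha => IsModFun.neg ha

theorem mem_modRing {h : ℍ → ℂ} : h ∈ modRing M ↔ IsModFun M h := Iff.rfl

/-- the `q`-expansion of a holomorphic modular function. -/
noncomputable def modExpFun [NeZero M] (hM1 : MemFF1 M) (h : modRing M) : FF1 ℂ M :=
  ⟨(IsModFun.exists_isExp h.2).choose, hM1 _ _ h.2 (IsModFun.exists_isExp h.2).choose_spec⟩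

theorem isExp_modExpFun [NeZero M] (hM1 : MemFF1 M) (h : modRing M) :
    IsExp 1 (h : ℍ → ℂ) (modExpFun hM1 h : LaurentSeries ℂ) :=
  (IsModFun.exists_isExp h.2).choose_spec

theorem modExpFun_eq [NeZero M] (hM1 : MemFF1 M) (h : modRing M) {x : FF1 ℂ M}
    (hx : IsExp 1 (h : ℍ → ℂ) (x : LaurentSeries ℂ)) : modExpFun hM1 h = x :=
  Subtype.ext ((isExp_modExpFun hM1 h).unique one_pos hx)

/-- the `q`-expansion, as a ring homomorphism. -/
noncomputable def modExp [NeZero M] (hM1 : MemFF1 M) : modRing M →+* FF1 ℂ M where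
  toFun := modExpFun hM1
  map_one' := modExpFun_eq hM1 _ (isExp_one 1)
  map_zero' := modExpFun_eq hM1 _ (isExp_zero 1)
  map_mul' f g := modExpFun_eq hM1 _ ((isExp_modExpFun hM1 f).mul (isExp_modExpFun hM1 g))
  map_add' f g := modExpFun_eq hM1 _ ((isExp_modExpFun hM1 f).add (isExp_modExpFun hM1 g))

theorem isExp_modExp [NeZero M] (hM1 : MemFF1 M) (h : modRing M) :
    IsExp 1 (h : ℍ → ℂ) (modExp hM1 h : LaurentSeries ℂ) := isExp_modExpFun hM1 h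

theorem modExp_eq [NeZero M] (hM1 : MemFF1 M) (h : modRing M) {x : FF1 ℂ M}
    (hx : IsExp 1 (h : ℍ → ℂ) (x : LaurentSeries ℂ)) : modExp hM1 h = x := modExpFun_eq hM1 h hx

theorem modExp_injective [NeZero M] (hM1 : MemFF1 M) : Function.Injective (modExp hM1) := by
  intro f g hfg
  apply Subtype.ext
  funext τ
  have h1 := isExp_modExp hM1 f
  rw [hfg] at h1
  exact h1.fun_unique (isExp_modExp hM1 g) τ

theorem compS_compS (σ σ' : SL(2, ℤ)) (h : ℍ → ℂ) : compS σ (compS σ' h) = compS (σ' * σ) h := by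
  funext τ
  simp only [compS, mul_smul]

theorem compS_one (h : ℍ → ℂ) : compS 1 h = h := by
  funext τ
  simp only [compS, one_smul]

/-- `h ↦ h ∘ σ` as an automorphism of the ring of modular functions. -/
noncomputable def compEquiv {σ : SL(2, ℤ)} (hσ : σ ∈ Gamma0 M) : modRing M ≃+* modRing M where
  toFun h := ⟨compS σ h, isModFun_compS hσ h.2⟩
  invFun h := ⟨compS σ⁻¹ h, isModFun_compS (inv_mem hσ) h.2⟩
  left_inv h := by
    apply Subtype.ext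
    simp only [compS_compS, mul_inv_cancel, compS_one]
  right_inv h := by
    apply Subtype.ext
    simp only [compS_compS, inv_mul_cancel, compS_one]
  map_mul' f g := rfl
  map_add' f g := rfl

/-- existence (localisation of the automorphism `h ↦ h ∘ σ` of the ring of modular functions). -/
theorem exists_realises [NeZero M] (hM1 : MemFF1 M) {σ : SL(2, ℤ)} (hσ : σ ∈ Gamma0 M) :
    ∃ δ : FF1 ℂ M ≃ₐ[ℂ] FF1 ℂ M, Realises M σ δ := by
  let _ : Algebra (modRing M) (FF1 ℂ M) := (modExp hM1).toAlgebra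
  have halg : ∀ h : modRing M, algebraMap (modRing M) (FF1 ℂ M) h = modExp hM1 h := fun _ => rfl
  have : FaithfulSMul (modRing M) (FF1 ℂ M) :=
    (faithfulSMul_iff_algebraMap_injective _ _).mpr (modExp_injective hM1)
  have : IsFractionRing (modRing M) (FF1 ℂ M) := by
    apply IsFractionRing.of_field
    intro z
    obtain ⟨a, b, fa, fb, ha, hb, hea, heb, hb0, hz⟩ := exists_modFun_frac z.2
    refine ⟨⟨a, ha⟩, ⟨b, hb⟩, ?_⟩
    have h1 : ((modExp hM1 ⟨a, ha⟩ : FF1 ℂ M) : LaurentSeries ℂ) = fa :=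
      (isExp_modExp hM1 ⟨a, ha⟩).unique one_pos hea
    have h2 : ((modExp hM1 ⟨b, hb⟩ : FF1 ℂ M) : LaurentSeries ℂ) = fb :=
      (isExp_modExp hM1 ⟨b, hb⟩).unique one_pos heb
    rw [halg, halg]
    have h3 : modExp hM1 ⟨b, hb⟩ ≠ 0 := by
      intro h0
      apply hb0
      rw [← h2, h0]
      rfl
    rw [eq_div_iff h3]
    apply Subtype.ext
    rw [IntermediateField.coe_mul, h1, h2, hz]
  let δ₀ : FF1 ℂ M ≃+* FF1 ℂ M := IsFractionRing.ringEquivOfRingEquiv (compEquiv hσ)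
  have hδ₀ : ∀ h : modRing M, δ₀ (modExp hM1 h) = modExp hM1 (compEquiv hσ h) := fun h =>
    IsFractionRing.ringEquivOfRingEquiv_algebraMap (compEquiv hσ) h
  have hconst : ∀ c : ℂ, algebraMap ℂ (FF1 ℂ M) c = modExp hM1 ⟨fun _ => c, IsModFun.const c⟩ := by
    intro c
    symm
    apply modExp_eq
    have : ((algebraMap ℂ (FF1 ℂ M) c : FF1 ℂ M) : LaurentSeries ℂ)
        = algebraMap ℂ (LaurentSeries ℂ) c := rfl
    rw [this, algebraMap_laurentSeries_eq_single]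
    exact S28.isExp_C 1 c
  refine ⟨AlgEquiv.ofRingEquiv (f := δ₀) ?_, ?_⟩
  · intro c
    rw [hconst, hδ₀]
    rfl
  · intro h x hh hx
    have h1 : x = modExp hM1 ⟨h, hh⟩ := (modExp_eq hM1 ⟨h, hh⟩ hx).symm
    have h2 : (AlgEquiv.ofRingEquiv (f := δ₀) (by
      intro c
      rw [hconst, hδ₀]
      rfl) : FF1 ℂ M ≃ₐ[ℂ] FF1 ℂ M) x = δ₀ x := rfl
    rw [h2, h1, hδ₀]
    exact isExp_modExp hM1 (compEquiv hσ ⟨h, hh⟩)

/-- `isDiamond_of_gens`: `j(dτ)` is `Γ₀(M)`-invariant (`GR.B.isModFun_jdfun`, `GR.B.isExp_jdfun`), and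
`genF M b d ∘ σ = genF M (σ₀₀ b) d` (`genF_smul_of_mem_Gamma0`, `isExp_genF`), `IsExp.unique`. -/
theorem Realises.isDiamond [NeZero M] {σ : SL(2, ℤ)} (hσ : σ ∈ Gamma0 M)
    {δ : FF1 ℂ M ≃ₐ[ℂ] FF1 ℂ M} (h : Realises M σ δ) {a : (ZMod M)ˣ}
    (ha : (a : ZMod M) = ((σ 0 0 : ℤ) : ZMod M)) : IsDiamond ℂ M a δ := by
  refine isDiamond_of_gens ?_ ?_
  · intro d _ hd
    apply Subtype.ext
    have h1 := h (S24.jdfun d)
      ⟨qExpand ℂ d (jqModC ℂ), FF_le_FF1 ℂ M (jqModCd_mem_full ℂ M hd)⟩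
      (isModFun_jdfun d hd) (GR.B.isExp_jdfun d)
    have h2 : compS σ (S24.jdfun d) = S24.jdfun d :=
      funext fun τ => (GR.B.isModFun_jdfun d hd).2.1 σ hσ τ
    rw [h2] at h1
    exact h1.unique one_pos (GR.B.isExp_jdfun d)
  · intro d _ hd b hb
    obtain ⟨b', rfl⟩ := ZMod.intCast_surjective b
    have hb' : ¬ (M : ℤ) ∣ b' := fun hdvd => hb ((ZMod.intCast_zmod_eq_zero_iff_dvd _ _).mpr hdvd)
    have h1 := h (genF M b' d) ⟨uB ℂ M d (b' : ZMod M), uB_mem_FF1 hd hb⟩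
      (isModFun_genF b' d hd) (isExp_genF M b' hb' d)
    have h2 : compS σ (genF M b' d) = genF M (σ 0 0 * b') d :=
      funext fun τ => genF_smul_of_mem_Gamma0 M b' d hd σ hσ τ
    rw [h2] at h1
    have hcast : ((σ 0 0 * b' : ℤ) : ZMod M) = (a : ZMod M) * (b' : ZMod M) := by
      rw [Int.cast_mul, ha]
    have hb'' : ¬ (M : ℤ) ∣ σ 0 0 * b' := fun hdvd => by
      have h0 := (ZMod.intCast_zmod_eq_zero_iff_dvd _ _).mpr hdvd
      rw [hcast] at h0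
      exact hb (a.isUnit.mul_right_eq_zero.1 h0)
    have h3 := isExp_genF M (σ 0 0 * b') hb'' d
    rw [h1.unique one_pos h3, hcast]

/-- every unit is the upper left entry of an element of `Γ₀(M)` (`exists_sigma` for a natural number
representing `a⁻¹`; `σ₀₀ σ₁₁ ≡ 1`). -/
theorem exists_sigma_upL (M : ℕ) [NeZero M] (a : (ZMod M)ˣ) :
    ∃ σ : SL(2, ℤ), σ ∈ Gamma0 M ∧ (a : ZMod M) = ((σ 0 0 : ℤ) : ZMod M) := by
  obtain ⟨σ, hσ, h11⟩ := exists_sigma M ((a⁻¹ : (ZMod M)ˣ) : ZMod M).val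
    (ZMod.val_coe_unit_coprime a⁻¹)
  refine ⟨σ, hσ, ?_⟩
  rw [ZMod.natCast_zmod_val] at h11
  have hc : ((σ 1 0 : ℤ) : ZMod M) = 0 := Gamma0_mem.1 hσ
  have hdet0 : σ 0 0 * σ 1 1 - σ 0 1 * σ 1 0 = 1 := by
    have := σ.det_coe
    rw [Matrix.det_fin_two] at this
    exact this
  have hdet := congrArg (Int.cast : ℤ → ZMod M) hdet0
  push_cast at hdet
  rw [h11, hc, mul_zero, sub_zero] at hdet
  have h2 : ((σ 0 0 : ℤ) : ZMod M) = ((σ 0 0 : ℤ) : ZMod M) * (((a⁻¹ : (ZMod M)ˣ) : ZMod M) * a) := by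
    rw [Units.inv_mul, mul_one]
  rw [h2, ← mul_assoc, hdet, one_mul]

/-- **(Bd)** the diamond operators exist over `ℂ`. -/
theorem diamondExists [NeZero M] (hM1 : MemFF1 M) : DiamondExists ℂ M := by
  intro a
  obtain ⟨σ, hσ, ha⟩ := exists_sigma_upL M a
  obtain ⟨δ, hδ⟩ := exists_realises hM1 hσ
  exact ⟨δ, hδ.isDiamond hσ ha⟩

/-- conversely (uniqueness of the diamond automorphisms). -/
theorem IsDiamond.realises [NeZero M] (hM1 : MemFF1 M) {σ : SL(2, ℤ)} (hσ : σ ∈ Gamma0 M)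
    {δ : FF1 ℂ M ≃ₐ[ℂ] FF1 ℂ M} {a : (ZMod M)ˣ} (ha : (a : ZMod M) = ((σ 0 0 : ℤ) : ZMod M))
    (h : IsDiamond ℂ M a δ) : Realises M σ δ := by
  obtain ⟨δ', hδ'⟩ := exists_realises hM1 hσ
  rw [h.unique (hδ'.isDiamond hσ ha)]
  exact hδ'

/-- conjugation by `σ ∈ Γ₀(M)` on `Γ₁(M)`: `γ ↦ σ γ σ⁻¹`. -/
def conjG (σ : SL(2, ℤ)) (hσ : σ ∈ Gamma0 M) : Gamma1 M →* Gamma1 M where
  toFun γ := ⟨σ * γ * σ⁻¹, conjS_mem_Gamma1 hσ γ.2⟩
  map_one' := by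
    apply Subtype.ext
    simp
  map_mul' γ γ' := by
    apply Subtype.ext
    simp [mul_assoc]

/-- `w ∘ σ` is a root of `c ∘ σ` with the character `γ ↦ φ (σ γ σ⁻¹)`. -/
theorem hasRoot_compS [NeZero M] {σ : SL(2, ℤ)} (hσ : σ ∈ Gamma0 M) {n : ℕ} [NeZero n]
    {c w : ℍ → ℂ} {φ : Additive (Gamma1 M) →+ ZMod n} (h : HasRoot M n c w φ) :
    HasRoot M n (compS σ c) (compS σ w) (φ.comp (MonoidHom.toAdditive (conjG σ hσ))) := by
  refine ⟨isModFun_compS hσ h.modFun, ?_, S28.mdiff_comp_smul h.mdiff σ, fun τ => h.pow_eq _,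
    fun γ τ => ?_⟩
  · obtain ⟨τ0, hτ0⟩ := h.ne_zero
    refine ⟨σ⁻¹ • τ0, ?_⟩
    show c (σ • σ⁻¹ • τ0) ≠ 0
    rwa [smul_inv_smul]
  · show w (σ • (γ : SL(2, ℤ)) • τ) = _ * w (σ • τ)
    have e : σ • (γ : SL(2, ℤ)) • τ = ((conjG σ hσ γ : Gamma1 M) : SL(2, ℤ)) • σ • τ := by
      show _ = (σ * γ * σ⁻¹) • σ • τ
      rw [← mul_smul, ← mul_smul, inv_mul_cancel_right]
    rw [e, h.char]
    rfl

/-- **(Bd)**, characters: `χ_{δ u} = χ_u ∘ (γ ↦ σ γ σ⁻¹)`.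
[`u = f z^n` with `f` the expansion of `c`: `δ u = δ f (δ z)^n` and `δ f` is the expansion of `c ∘ σ`.] -/
theorem hasChar_diamond [NeZero M] (hM1 : MemFF1 M) {σ : SL(2, ℤ)} (hσ : σ ∈ Gamma0 M)
    {δ : FF1 ℂ M ≃ₐ[ℂ] FF1 ℂ M} (hδ : Realises M σ δ) {n : ℕ} [NeZero n] {u : FF1 ℂ M}
    {φ : Additive (Gamma1 M) →+ ZMod n} (h : HasChar M n (u : LaurentSeries ℂ) φ) :
    HasChar M n ((δ u : FF1 ℂ M) : LaurentSeries ℂ)
      (φ.comp (MonoidHom.toAdditive (conjG σ hσ))) := by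
  obtain ⟨c, w, f, hr, he, z, hz, hz0, hu⟩ := h
  have hf : f ∈ FF1 ℂ M := hM1 c f hr.modFun he
  have hu' : u = (⟨f, hf⟩ : FF1 ℂ M) * (⟨z, hz⟩ : FF1 ℂ M) ^ n := Subtype.ext hu
  refine ⟨compS σ c, compS σ w, ((δ ⟨f, hf⟩ : FF1 ℂ M) : LaurentSeries ℂ), hasRoot_compS hσ hr,
    hδ c ⟨f, hf⟩ hr.modFun he, ((δ ⟨z, hz⟩ : FF1 ℂ M) : LaurentSeries ℂ), (δ ⟨z, hz⟩).2, ?_, ?_⟩
  · intro h0
    have h1 : δ (⟨z, hz⟩ : FF1 ℂ M) = 0 := Subtype.ext h0
    have h2 : (⟨z, hz⟩ : FF1 ℂ M) = 0 := by simpa using h1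
    exact hz0 (congrArg Subtype.val h2)
  · rw [hu', map_mul, map_pow]
    rfl

end Fermat.Agent.G1.B
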