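import Fermat.Agent.G1.B.HeckeExp
import Fermat.Agent.G1.B.Diamond

/-!
# G1-B, file `Add` (NEW, needed by G1-IG): the ADDITIVE Hecke operator on functions

`(H.addFun f)(τ) = ∑ i, f (α i • τ)`; copy of `mulFun` (`G1/B/HeckeFun.lean`, `G1/B/HeckeExp.lean`) with sums
instead of products.
-/

set_option autoImplicit false

open UpperHalfPlane ModularCurve Matrix.SpecialLinearGroup CongruenceSubgroup
open scoped MatrixGroups Manifold

namespace Fermat.Agent.G1.B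

open Fermat.Agent.S24 Fermat.Agent.S28 Fermat.Agent.G1.A Fermat.Agent.GR Fermat.Agent.GR.B

variable {M : ℕ}

/-- The additive Hecke operator on functions. -/
noncomputable def Reps1.addFun (H : Reps1 M) (f : ℍ → ℂ) : ℍ → ℂ := fun τ => ∑ i, f (H.α i • τ)

theorem Reps1.addFun_apply (H : Reps1 M) (f : ℍ → ℂ) (τ : ℍ) :
    H.addFun f τ = ∑ i, f (H.α i • τ) := rfl

theorem Add_addFun_eq_sum (H : Reps1 M) (f : ℍ → ℂ) :
    H.addFun f = ∑ i, (fun τ : ℍ => f (H.α i • τ)) := by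
  funext τ
  rw [Finset.sum_apply]
  rfl

/-- copy of `Reps1.mdiff_mulFun` (`Subring.sum_mem Hol`). -/
theorem Reps1.mdiff_addFun (H : Reps1 M) {f : ℍ → ℂ} (hf : MDiff f) : MDiff (H.addFun f) := by
  rw [Add_addFun_eq_sum]
  exact Subring.sum_mem Hol (fun i _ => HeckeFun_mdiff_comp H hf i)

/-- `Reps1.sum_comp_smul` with `φ = 0`. -/
theorem Reps1.addFun_invariant (H : Reps1 M) {f : ℍ → ℂ}
    (hf : ∀ γ ∈ Gamma1 M, ∀ τ : ℍ, f (γ • τ) = f τ) :
    ∀ γ ∈ Gamma1 M, ∀ τ : ℍ, H.addFun f (γ • τ) = H.addFun f τ := by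
  intro γ hγ τ
  have := H.sum_comp_smul (0 : Additive (Gamma1 M) →+ ℂ) f
    (fun γ z => by rw [AddMonoidHom.zero_apply, add_zero]; exact hf γ γ.2 z) ⟨γ, hγ⟩ τ
  rw [map_zero, AddMonoidHom.zero_apply, add_zero] at this
  exact this

/-- copy of `Reps1.isModFun_mulFun`. -/
theorem Reps1.isModFun_addFun [NeZero M] (H : Reps1 M) (hH : H.IsInt) {f : ℍ → ℂ}
    (hf : IsModFun M f) : IsModFun M (H.addFun f) := by
  refine isModFun_of_exists_level (H.mdiff_addFun hf.1) (H.addFun_invariant hf.2.1) fun γ => ?_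
  have key : ∀ i, ∃ δ : ℕ, 0 < δ ∧ (fun τ : ℍ => f (H.α i • (γ • τ))) ∈ MerInf (M * δ) := by
    intro i
    obtain ⟨A, hA⟩ := hH i
    have hdet : 0 < A.det := by
      have h1 := H.det_pos i
      rw [Matrix.GeneralLinearGroup.val_det_apply, hA, ← Int.cast_det] at h1
      exact_mod_cast h1
    exact exists_mem_MerInf_comp_smul hf.2.2 (H.α i) A hA hdet γ
  choose δ hδ hmem using key
  have hpos : 0 < M * ∏ i, δ i :=
    Nat.mul_pos (Nat.pos_of_ne_zero (NeZero.ne M)) (Finset.prod_pos fun i _ => hδ i)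
  have : NeZero (M * ∏ i, δ i) := ⟨hpos.ne'⟩
  refine ⟨M * ∏ i, δ i, hpos, ?_⟩
  have h1 : (fun τ : ℍ => H.addFun f (γ • τ)) = ∑ i, (fun τ : ℍ => f (H.α i • (γ • τ))) := by
    funext τ
    rw [Finset.sum_apply]
    rfl
  rw [h1]
  refine Subring.sum_mem _ fun i _ => ?_
  exact mem_MerInf_of_dvd (Nat.mul_dvd_mul_left M (Finset.dvd_prod_of_mem δ (Finset.mem_univ i)))
    (hmem i)

/-- formal: `∑_{j<p} s(ζ^j t) = p (U_p s)(t^p)` (coefficient of `t^n`: `∑_j ζ^{jn} = p` if `p ∣ n`, `0`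
otherwise: `IsPrimitiveRoot.geom_sum_eq_zero` / `IsPrimitiveRoot.pow_eq_one_iff_dvd`; `scaleHom_coeff`,
`Uop_coeff`, `qExpand_coeff_mul`, `qExpand_coeff_of_not_dvd`). -/
theorem sum_scaleHom (p : ℕ) [NeZero p] (ζ : ℂˣ) (hζ : IsPrimitiveRoot ζ p) (s : LaurentSeries ℂ) :
    ∑ j ∈ Finset.range p, scaleHom (ζ ^ j) s = qExpand ℂ p ((p : LaurentSeries ℂ) * Uop p s) := by
  ext n
  have hL : (∑ j ∈ Finset.range p, scaleHom (ζ ^ j) s).coeff n =
      (∑ j ∈ Finset.range p, (((ζ ^ n : ℂˣ) : ℂ)) ^ j) * s.coeff n := by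
    rw [HahnSeries.coeff_sum, Finset.sum_mul]
    refine Finset.sum_congr rfl fun j _ => ?_
    rw [scaleHom_coeff]
    congr 1
    rw [← Units.val_pow_eq_pow_val]
    congr 1
    rw [← zpow_natCast, ← zpow_natCast, ← zpow_mul, ← zpow_mul, mul_comm]
  have hC : (p : LaurentSeries ℂ) = HahnSeries.C (p : ℂ) := (map_natCast HahnSeries.C p).symm
  by_cases hn : (p : ℤ) ∣ n
  · obtain ⟨k, rfl⟩ := hn
    have h1 : ζ ^ ((p : ℤ) * k) = 1 := (hζ.zpow_eq_one_iff_dvd _).2 ⟨k, rfl⟩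
    rw [hL, qExpand_coeff_mul, hC, HahnSeries.C_mul_eq_smul, HahnSeries.coeff_smul, Uop_coeff, h1]
    simp
  · rw [hL, qExpand_coeff_of_not_dvd _ _ hn]
    have hη : ((ζ ^ n : ℂˣ) : ℂ) ≠ 1 := by
      intro h
      exact hn ((hζ.zpow_eq_one_iff_dvd n).1 (Units.ext h))
    have hηp : ((ζ ^ n : ℂˣ) : ℂ) ^ p = 1 := by
      rw [← Units.val_pow_eq_pow_val, ← zpow_natCast, ← zpow_mul, mul_comm, zpow_mul,
        zpow_natCast, hζ.pow_eq_one, one_zpow, Units.val_one]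
    have hsum : ∑ j ∈ Finset.range p, (((ζ ^ n : ℂˣ) : ℂ)) ^ j = 0 := by
      have h2 := geom_sum_mul (((ζ ^ n : ℂˣ) : ℂ)) p
      rw [hηp, sub_self] at h2
      exact (mul_eq_zero.1 h2).resolve_right (sub_ne_zero.2 hη)
    rw [hsum, zero_mul]

theorem Add_isExp_sum {N : ℕ} {ι : Type*} (t : Finset ι) (hh : ι → ℍ → ℂ)
    (ff : ι → LaurentSeries ℂ) (H : ∀ i ∈ t, IsExp N (hh i) (ff i)) :
    IsExp N (∑ i ∈ t, hh i) (∑ i ∈ t, ff i) := by
  classical
  induction t using Finset.induction_on with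
  | empty => simpa using isExp_zero N
  | insert a t ha ih =>
    rw [Finset.sum_insert ha, Finset.sum_insert ha]
    exact (H a (Finset.mem_insert_self a t)).add
      (ih fun i hi => H i (Finset.mem_insert_of_mem hi))

theorem Add_sum_zmod {A : Type*} [AddCommMonoid A] (p : ℕ) [NeZero p] (g : ℕ → A) :
    ∑ x : ZMod p, g x.val = ∑ j ∈ Finset.range p, g j := by
  refine Finset.sum_bij (fun x _ => x.val) ?_ ?_ ?_ ?_
  · intro x _
    exact Finset.mem_range.2 (ZMod.val_lt x)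
  · intro x _ y _ h
    exact ZMod.val_injective p h
  · intro j hj
    refine ⟨(j : ZMod p), Finset.mem_univ _, ?_⟩
    exact ZMod.val_cast_of_lt (Finset.mem_range.1 hj)
  · intro x _
    rfl

/-- copy of `GR.B.HeckeExp_isExp_prod` (`IsExp.sum` or induction with `IsExp.add`,
`isExp_one_of_qExpand`, `isExp_comp_heckeMatrix`, `HeckeExp_prod_zmod` additive version). -/
theorem isExp_sum_heckeMatrix (p : ℕ) [NeZero p] {f : ℍ → ℂ} {s : LaurentSeries ℂ}
    (H : IsExp 1 f s) :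
    IsExp 1 (fun τ => ∑ x : ZMod p, f (ModularForm.heckeMatrix p x.val • τ))
      ((p : LaurentSeries ℂ) * Uop p s) := by
  apply isExp_one_of_qExpand (ℓ := p)
  rw [← sum_scaleHom p _ (isPrimitiveRoot_rootU p)]
  have h1 := Add_isExp_sum (N := p) (Finset.range p)
    (fun j τ => f (ModularForm.heckeMatrix p j • τ)) (fun j => scaleHom (rootU 1 p ^ j) s)
    (fun j _ => isExp_comp_heckeMatrix p j H)
  have e : (fun τ => ∑ x : ZMod p, f (ModularForm.heckeMatrix p x.val • τ)) =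
      ∑ j ∈ Finset.range p, (fun τ => f (ModularForm.heckeMatrix p j • τ)) := by
    funext τ
    rw [Finset.sum_apply]
    exact Add_sum_zmod p (fun j => f (ModularForm.heckeMatrix p j • τ))
  rw [e]
  exact h1

open P2MW.S_ModularForm_heckeT_slash_eq_self_of_mem_Gamma0.ModularForm.HeckeSlashInvariance in
/-- the summands of `(repsT1 p hpM).addFun f`. -/
theorem Add_addFun_repsT1_eq (p : ℕ) [Fact p.Prime] (hpM : ¬ p ∣ M) (f : ℍ → ℂ) :
    (repsT1 p hpM).addFun f =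
      (fun τ => f (sigmaP M p hpM • (ModularForm.heckeDiagMatrix p • τ))) +
      (fun τ => ∑ x : ZMod p, f (ModularForm.heckeMatrix p x.val • τ)) := by
  funext τ
  rw [Reps1.addFun_apply, Pi.add_apply]
  have h := Fintype.sum_option (fun x : OnePoint (ZMod p) => f ((repsT1 p hpM).α x • τ))
  refine h.trans ?_
  congr 1
  · show f ((mapGL ℝ (sigmaP M p hpM) * heckeRep p OnePoint.infty) • τ) = _
    rw [mul_smul, heckeRep_infty]
    rfl
  · refine Finset.sum_congr rfl (fun x _ => ?_)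
    show f ((mapGL ℝ (1 : SL(2, ℤ)) * heckeRep p (x : OnePoint (ZMod p))) • τ) = _
    rw [map_one, one_mul, heckeRep_coe]

/-- `q`-expansion of the additive `T_p`: `s'` is the expansion of `f ∘ σ_p`
(copy of `mulFun_repsT1_eq`, `isExp_mulFun_repsT1`). -/
theorem isExp_addFun_repsT1 (p : ℕ) [Fact p.Prime] (hpM : ¬ p ∣ M) {f : ℍ → ℂ}
    {s s' : LaurentSeries ℂ} (H : IsExp 1 f s)
    (H' : IsExp 1 (fun τ => f (sigmaP M p hpM • τ)) s') :
    IsExp 1 ((repsT1 p hpM).addFun f) (qExpand ℂ p s' + (p : LaurentSeries ℂ) * Uop p s) := by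
  have hp : p.Prime := Fact.out
  have : NeZero p := ⟨hp.ne_zero⟩
  have h1 := (isExp_comp_heckeDiagMatrix p H').add (isExp_sum_heckeMatrix p H)
  rw [Add_addFun_repsT1_eq]
  exact h1

end Fermat.Agent.G1.B
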