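import Fermat.Agent.GR.B.CharConj
import Fermat.Agent.G1.A.ModDefs
import Fermat.Agent.G1.C.Basic

/-!
# G1-B, file B-7: complex conjugation, `χ_{c u} = - χ_u ∘ (γ ↦ J γ J)` (port of `GR/B/CharConj.lean`
to `Γ₁(M)`)
-/

set_option autoImplicit false

open UpperHalfPlane ModularCurve ModularCurve.Period Matrix.SpecialLinearGroup CongruenceSubgroup
open scoped MatrixGroups Manifold ComplexConjugate

namespace Fermat.Agent.G1.B

open Fermat.Agent.S24 Fermat.Agent.S28 Fermat.Agent.G1.A Fermat.Agent.S21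

/-- `γ ↦ J γ J` preserves `Γ₁(M)`. -/
theorem jConjSL_mem_Gamma1 {M : ℕ} {A : SL(2, ℤ)} (hA : A ∈ Gamma1 M) :
    jConjSL A ∈ Gamma1 M := by
  obtain ⟨h00, h11, h10⟩ := (Gamma1_mem M A).mp hA
  rw [Gamma1_mem]
  refine ⟨?_, ?_, ?_⟩
  · show ((((jConjSL A : SL(2, ℤ)) : Matrix (Fin 2) (Fin 2) ℤ) 0 0 : ℤ) : ZMod M) = 1
    rw [jConjSL_coe, jConjMat_apply_zero_zero]; exact h00
  · show ((((jConjSL A : SL(2, ℤ)) : Matrix (Fin 2) (Fin 2) ℤ) 1 1 : ℤ) : ZMod M) = 1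
    rw [jConjSL_coe, jConjMat_apply_one_one]; exact h11
  · show ((((jConjSL A : SL(2, ℤ)) : Matrix (Fin 2) (Fin 2) ℤ) 1 0 : ℤ) : ZMod M) = 0
    rw [jConjSL_coe, jConjMat_apply_one_zero]; push_cast
    rw [neg_eq_zero]; exact h10

/-- `γ ↦ J γ J` on `Γ₁(M)`. -/
def jConjGamma1 (M : ℕ) : Gamma1 M →* Gamma1 M where
  toFun γ := ⟨jConjSL ↑γ, jConjSL_mem_Gamma1 γ.2⟩
  map_one' := by
    apply Subtype.ext
    show jConjSL ↑(1 : Gamma1 M) = _
    rw [OneMemClass.coe_one, map_one]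
  map_mul' γ δ := by
    apply Subtype.ext
    show jConjSL ↑(γ * δ) = _
    rw [MulMemClass.coe_mul, map_mul]; rfl

@[simp] theorem jConjGamma1_coe (M : ℕ) (γ : Gamma1 M) :
    ((jConjGamma1 M γ : Gamma1 M) : SL(2, ℤ)) = jConjSL ↑γ := rfl

theorem jConjGamma1_jConjGamma1 (M : ℕ) (γ : Gamma1 M) :
    jConjGamma1 M (jConjGamma1 M γ) = γ := by
  apply Subtype.ext; rw [jConjGamma1_coe, jConjGamma1_coe, jConjSL_jConjSL]

/-- `φ ↦ φ ∘ (γ ↦ J γ J)` on characters of `Γ₁(M)`. -/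
def charInvolution1 (M : ℕ) (A : Type*) [AddCommGroup A] :
    (Additive (Gamma1 M) →+ A) →+ (Additive (Gamma1 M) →+ A) where
  toFun ψ := ψ.comp (MonoidHom.toAdditive (jConjGamma1 M))
  map_zero' := rfl
  map_add' _ _ := rfl

@[simp] theorem charInvolution1_apply (M : ℕ) (A : Type*) [AddCommGroup A]
    (ψ : Additive (Gamma1 M) →+ A) (γ : Additive (Gamma1 M)) :
    (charInvolution1 M A ψ) γ = ψ (Additive.ofMul (jConjGamma1 M (Additive.toMul γ))) := rfl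

theorem charInvolution1_eq_comp (M : ℕ) (A : Type*) [AddCommGroup A]
    (ψ : Additive (Gamma1 M) →+ A) :
    charInvolution1 M A ψ = ψ.comp (MonoidHom.toAdditive (jConjGamma1 M)) := rfl

theorem charInvolution1_charInvolution1 (M : ℕ) (A : Type*) [AddCommGroup A]
    (ψ : Additive (Gamma1 M) →+ A) :
    charInvolution1 M A (charInvolution1 M A ψ) = ψ := by
  refine AddMonoidHom.ext fun γ => ?_
  show ψ (Additive.ofMul (jConjGamma1 M (jConjGamma1 M (Additive.toMul γ)))) = ψ γ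
  rw [jConjGamma1_jConjGamma1]; rfl

variable {M : ℕ}

private theorem CharConj_tilde_smul (f : ℍ → ℂ) (γ : SL(2, ℤ)) (τ : ℍ) :
    tilde f (γ • τ) = tilde (fun z => f (jConjSL γ • z)) τ := by
  simp only [tilde, jConjSL_smul_refl]

theorem isModFun_tilde [NeZero M] {f : ℍ → ℂ} (hf : IsModFun M f) : IsModFun M (tilde f) := by
  refine ⟨GR.B.mdiff_tilde hf.1, ?_, ?_⟩
  · intro γ hγ τ
    rw [CharConj_tilde_smul]
    simp only [tilde]
    rw [hf.2.1 _ (jConjSL_mem_Gamma1 hγ)]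
  · intro γ
    have : (fun τ : ℍ => tilde f (γ • τ)) = tilde (fun z => f (jConjSL γ • z)) :=
      funext fun τ => CharConj_tilde_smul f γ τ
    rw [this]
    exact GR.B.mem_MerInf_tilde (hf.2.2 (jConjSL γ))

theorem hasRoot_tilde [NeZero M] {n : ℕ} [NeZero n] {c w : ℍ → ℂ}
    {φ : Additive (Gamma1 M) →+ ZMod n} (h : HasRoot M n c w φ) :
    HasRoot M n (tilde c) (tilde w) (-(φ.comp (MonoidHom.toAdditive (jConjGamma1 M)))) := by
  refine ⟨isModFun_tilde h.modFun, ?_, GR.B.mdiff_tilde h.mdiff, ?_, ?_⟩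
  · obtain ⟨τ, hτ⟩ := h.ne_zero
    refine ⟨refl τ, ?_⟩
    simp only [tilde, refl_refl]
    exact (map_ne_zero _).2 hτ
  · intro τ
    simp only [tilde]
    rw [← map_pow, h.pow_eq]
  · intro γ τ
    rw [CharConj_tilde_smul]
    simp only [tilde]
    have h1 := h.char (jConjGamma1 M γ) (refl τ)
    rw [jConjGamma1_coe] at h1
    rw [h1, map_mul, AddMonoidHom.neg_apply, AddChar.map_neg_eq_conj]
    rfl

/-- (A8) for `Γ₁(M)`. -/
theorem hasChar_conj [NeZero M] {n : ℕ} [NeZero n] {u : LaurentSeries ℂ}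
    {φ : Additive (Gamma1 M) →+ ZMod n} (h : HasChar M n u φ) :
    HasChar M n (coeffMap (starRingEnd ℂ) u)
      (-(φ.comp (MonoidHom.toAdditive (jConjGamma1 M)))) := by
  obtain ⟨c, w, f, hr, he, hk⟩ := h
  exact ⟨tilde c, tilde w, coeffMap (starRingEnd ℂ) f, hasRoot_tilde hr, GR.B.isExp_tilde he,
    G1.C.kummerEquiv_coeffMap hk _⟩

/-- `hasChar_conj` phrased with `charInvolution1`. -/
theorem hasChar_conj' [NeZero M] {n : ℕ} [NeZero n] {u : LaurentSeries ℂ}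
    {φ : Additive (Gamma1 M) →+ ZMod n} (h : HasChar M n u φ) :
    HasChar M n (coeffMap (starRingEnd ℂ) u) (-(charInvolution1 M (ZMod n) φ)) :=
  hasChar_conj h

end Fermat.Agent.G1.B
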