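import Fermat.Agent.G1.B.ModFrac
import Fermat.Agent.G1.C.Basic

/-!
# G1-B, Kummer side, file K7: formal properties of the relation `HasChar N n u φ` ("`χ_u = φ`")
-/

set_option autoImplicit false

open UpperHalfPlane ModularCurve Matrix.SpecialLinearGroup CongruenceSubgroup
open scoped MatrixGroups Manifold

namespace Fermat.Agent.G1.B

open Fermat.Agent.S24 Fermat.Agent.S28 Fermat.Agent.G1.A

variable {N : ℕ}

private theorem CharSoft_isDomain : IsDomain Hol :=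
  (taylorHom_injective UpperHalfPlane.I).isDomain (taylorHom UpperHalfPlane.I)

/-- the product of two nonzero holomorphic functions is nonzero. -/
theorem exists_mul_ne_zero {f g : ℍ → ℂ} (hf : MDiff f) (hg : MDiff g) (hf0 : ∃ τ, f τ ≠ 0)
    (hg0 : ∃ τ, g τ ≠ 0) : ∃ τ, f τ * g τ ≠ 0 := by
  have := CharSoft_isDomain
  by_contra hcon
  push Not at hcon
  have h0 : (⟨f, hf⟩ : Hol) * ⟨g, hg⟩ = 0 := by
    apply Subtype.ext
    funext τ
    exact hcon τ
  rcases mul_eq_zero.1 h0 with h | h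
  · obtain ⟨τ, hτ⟩ := hf0
    exact hτ (congrFun (congrArg Subtype.val h) τ)
  · obtain ⟨τ, hτ⟩ := hg0
    exact hτ (congrFun (congrArg Subtype.val h) τ)

/-- two holomorphic functions with the same `n`-th power differ by a root of unity. -/
theorem exists_root_of_pow_eq {n : ℕ} [NeZero n] {f g : ℍ → ℂ} (hf : MDiff f) (hg : MDiff g)
    (h : ∀ τ, f τ ^ n = g τ ^ n) : ∃ ζ : ℂ, ζ ^ n = 1 ∧ ∀ τ, f τ = ζ * g τ := by
  have := CharSoft_isDomain
  have hn : 0 < n := Nat.pos_of_ne_zero (NeZero.ne n)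
  have hζ : IsPrimitiveRoot (Complex.exp (2 * Real.pi * Complex.I / n)) n :=
    Complex.isPrimitiveRoot_exp n (NeZero.ne n)
  have hinj : Function.Injective constHol := by
    intro a b hab
    exact congrFun (congrArg Subtype.val hab) UpperHalfPlane.I
  have hζ' : IsPrimitiveRoot (constHol (Complex.exp (2 * Real.pi * Complex.I / n))) n :=
    hζ.map_of_injective hinj
  have hprod := hζ'.pow_sub_pow_eq_prod_sub_mul (⟨f, hf⟩ : Hol) ⟨g, hg⟩ hn
  have h0 : (⟨f, hf⟩ : Hol) ^ n - (⟨g, hg⟩ : Hol) ^ n = 0 := by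
    rw [sub_eq_zero]
    apply Subtype.ext
    funext τ
    exact h τ
  rw [h0] at hprod
  obtain ⟨η, hη, hη0⟩ := Finset.prod_eq_zero_iff.1 hprod.symm
  have hη1 : η ^ n = 1 := ((Polynomial.mem_nthRootsFinset hn 1).1 hη)
  obtain ⟨i, -, hi⟩ := hζ'.eq_pow_of_pow_eq_one hη1
  refine ⟨Complex.exp (2 * Real.pi * Complex.I / n) ^ i, ?_, ?_⟩
  · rw [← pow_mul, mul_comm i n, pow_mul, hζ.pow_eq_one, one_pow]
  · intro τ
    have := congrFun (congrArg Subtype.val (sub_eq_zero.1 hη0)) τ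
    rw [← hi, ← map_pow] at this
    exact this

/-- the function is determined by its expansion. -/
theorem eq_of_isExp {h : ℕ} {f g : ℍ → ℂ} {s : LaurentSeries ℂ} (hf : IsExp h f s)
    (hg : IsExp h g s) : f = g :=
  funext fun τ => (hf τ).unique (hg τ)

theorem HasChar.congr {n : ℕ} [NeZero n] {u u' : LaurentSeries ℂ}
    {φ : Additive (Gamma1 N) →+ ZMod n} (h : HasChar N n u φ) (hu : KummerEquiv1 N n u u') :
    HasChar N n u' φ := by
  obtain ⟨c, w, f, hr, he, hk⟩ := h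
  exact ⟨c, w, f, hr, he, G1.C.kummerEquiv_trans hk hu⟩

private theorem CharSoft_exists_ne_zero {b : ℍ → ℂ} {fb : LaurentSeries ℂ} (hb : IsExp 1 b fb)
    (h0 : fb ≠ 0) : ∃ τ, b τ ≠ 0 := by
  by_contra hcon
  push Not at hcon
  have : b = 0 := funext hcon
  rw [this] at hb
  exact h0 (hb.eq_zero one_pos)

private theorem CharSoft_ne_zero {b : ℍ → ℂ} {fb : LaurentSeries ℂ} (hb : IsExp 1 b fb)
    (h0 : ∃ τ, b τ ≠ 0) : fb ≠ 0 := by
  rintro rfl
  obtain ⟨τ, hτ⟩ := h0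
  exact hτ (congrFun (eq_of_isExp hb (isExp_zero 1)) τ)

/-- (A3) uniqueness of the character. -/
theorem HasChar.unique [NeZero N] {n : ℕ} [NeZero n] {u : LaurentSeries ℂ}
    {φ φ' : Additive (Gamma1 N) →+ ZMod n} (h : HasChar N n u φ) (h' : HasChar N n u φ') :
    φ = φ' := by
  obtain ⟨c, w, f, hr, he, hk⟩ := h
  obtain ⟨c', w', f', hr', he', hk'⟩ := h'
  obtain ⟨z, hz, hz0, hff⟩ := G1.C.kummerEquiv_trans hk (G1.C.kummerEquiv_symm hk')
  obtain ⟨a, b, fa, fb, ha, hb, hea, heb, hfb0, hzfb⟩ := exists_modFun_frac hz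
  have hser : f' * fb ^ n = f * fa ^ n := by
    rw [hff, ← hzfb, mul_pow, mul_assoc]
  have hfun : c' * b ^ n = c * a ^ n := by
    have h1 := he'.mul (heb.pow n)
    have h2 := he.mul (hea.pow n)
    rw [hser] at h1
    exact eq_of_isExp h1 h2
  have hpow : ∀ τ, (w' τ * b τ) ^ n = (w τ * a τ) ^ n := by
    intro τ
    rw [mul_pow, mul_pow, hr'.pow_eq, hr.pow_eq]
    exact congrFun hfun τ
  obtain ⟨ζ, -, hζ⟩ := exists_root_of_pow_eq (f := fun τ => w' τ * b τ)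
    (g := fun τ => w τ * a τ) (hr'.mdiff.mul hb.1) (hr.mdiff.mul ha.1) hpow
  have hw'0 : ∃ τ, w' τ ≠ 0 := by
    obtain ⟨τ, hτ⟩ := hr'.ne_zero
    refine ⟨τ, fun h0 => hτ ?_⟩
    rw [← hr'.pow_eq, h0, zero_pow (NeZero.ne n)]
  obtain ⟨τ, hτ⟩ := exists_mul_ne_zero hr'.mdiff hb.1 hw'0 (CharSoft_exists_ne_zero heb hfb0)
  apply AddMonoidHom.ext
  intro x
  obtain ⟨γ, rfl⟩ := Additive.ofMul.surjective x
  apply ZMod.injective_stdAddChar
  have h1 := hζ ((γ : SL(2, ℤ)) • τ)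
  rw [hr'.char, hr.char, hb.2.1 _ γ.2, ha.2.1 _ γ.2] at h1
  have h2 := hζ τ
  have h3 : ZMod.stdAddChar (φ' (Additive.ofMul γ)) * (w' τ * b τ) =
      ZMod.stdAddChar (φ (Additive.ofMul γ)) * (w' τ * b τ) := by
    linear_combination h1 - ZMod.stdAddChar (φ (Additive.ofMul γ)) * h2
  exact (mul_right_cancel₀ hτ h3).symm

/-- (A4) multiplicativity. -/
theorem HasChar.mul {n : ℕ} [NeZero n] {u u' : LaurentSeries ℂ}
    {φ φ' : Additive (Gamma1 N) →+ ZMod n} (h : HasChar N n u φ) (h' : HasChar N n u' φ') :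
    HasChar N n (u * u') (φ + φ') := by
  obtain ⟨c, w, f, hr, he, z, hz, hz0, rfl⟩ := h
  obtain ⟨c', w', f', hr', he', z', hz', hz0', rfl⟩ := h'
  refine ⟨c * c', w * w', f * f', ⟨IsModFun.mul hr.modFun hr'.modFun,
    exists_mul_ne_zero hr.modFun.1 hr'.modFun.1 hr.ne_zero hr'.ne_zero, hr.mdiff.mul hr'.mdiff,
    ?_, ?_⟩, he.mul he', z * z', mul_mem hz hz', mul_ne_zero hz0 hz0', ?_⟩
  · intro τ
    simp only [Pi.mul_apply]
    rw [mul_pow, hr.pow_eq, hr'.pow_eq]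
  · intro γ τ
    simp only [Pi.mul_apply, AddMonoidHom.add_apply]
    rw [hr.char, hr'.char, AddChar.map_add_eq_mul]
    ring
  · ring

theorem HasChar.one (n : ℕ) [NeZero n] : HasChar N n 1 0 := by
  refine ⟨1, 1, 1, ⟨IsModFun.const 1, ⟨UpperHalfPlane.I, one_ne_zero⟩, mdifferentiable_const,
    ?_, ?_⟩, isExp_one 1, G1.C.kummerEquiv_refl N n 1⟩
  · intro τ
    simp
  · intro γ τ
    simp

private theorem CharSoft_pow {n : ℕ} [NeZero n] {u : LaurentSeries ℂ}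
    {φ : Additive (Gamma1 N) →+ ZMod n} (h : HasChar N n u φ) (k : ℕ) :
    HasChar N n (u ^ k) (k • φ) := by
  induction k with
  | zero => simpa using HasChar.one (N := N) n
  | succ k ih =>
    rw [pow_succ, succ_nsmul]
    exact HasChar.mul ih h

theorem HasChar.inv [NeZero N] (hM1 : MemFF1 N) {n : ℕ} [NeZero n] {u : LaurentSeries ℂ}
    {φ : Additive (Gamma1 N) →+ ZMod n} (h : HasChar N n u φ) : HasChar N n u⁻¹ (-φ) := by
  have hn : 0 < n := Nat.pos_of_ne_zero (NeZero.ne n)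
  have hu : u ∈ FF1 ℂ N ∧ u ≠ 0 := by
    obtain ⟨c, w, f, hr, he, z, hz, hz0, rfl⟩ := h
    exact ⟨mul_mem (hM1 _ _ hr.modFun he) (pow_mem hz n),
      mul_ne_zero (CharSoft_ne_zero he hr.ne_zero) (pow_ne_zero _ hz0)⟩
  have h1 := CharSoft_pow h (n - 1)
  have hφ : (n - 1) • φ = -φ := by
    apply AddMonoidHom.ext
    intro x
    have h2 : (n - 1) • φ x + φ x = 0 := by
      rw [← succ_nsmul, Nat.sub_add_cancel hn]
      simp
    simpa using eq_neg_of_add_eq_zero_left h2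
  rw [hφ] at h1
  refine HasChar.congr h1 ⟨u⁻¹, inv_mem hu.1, inv_ne_zero hu.2, ?_⟩
  obtain ⟨k, rfl⟩ : ∃ k, n = k + 1 := ⟨n - 1, (Nat.sub_add_cancel hn).symm⟩
  rw [Nat.add_sub_cancel, pow_succ u⁻¹ k, ← mul_assoc, ← mul_pow, mul_inv_cancel₀ hu.2, one_pow,
    one_mul]

private theorem CharSoft_stdAddChar_pow {n m : ℕ} [NeZero n] [NeZero m] (x : ZMod (n * m)) :
    (ZMod.stdAddChar x) ^ m =
      ZMod.stdAddChar (ZMod.castHom (dvd_mul_right n m) (ZMod n) x) := by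
  obtain ⟨k, rfl⟩ := ZMod.intCast_surjective x
  rw [map_intCast (ZMod.castHom (dvd_mul_right n m) (ZMod n)) k, ZMod.stdAddChar_coe,
    ZMod.stdAddChar_coe, ← Complex.exp_nat_mul]
  congr 1
  have hn : (n : ℂ) ≠ 0 := Nat.cast_ne_zero.2 (NeZero.ne n)
  have hm : (m : ℂ) ≠ 0 := Nat.cast_ne_zero.2 (NeZero.ne m)
  push_cast
  field_simp

/-- (A7) compatibility `n m → n`. -/
theorem HasChar.of_mul {n m : ℕ} [NeZero n] [NeZero m] {u : LaurentSeries ℂ}
    {φ : Additive (Gamma1 N) →+ ZMod (n * m)} (h : HasChar N (n * m) u φ) :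
    HasChar N n u ((ZMod.castHom (dvd_mul_right n m) (ZMod n)).toAddMonoidHom.comp φ) := by
  obtain ⟨c, w, f, hr, he, z, hz, hz0, rfl⟩ := h
  refine ⟨c, w ^ m, f, ⟨hr.modFun, hr.ne_zero, hr.mdiff.pow m, ?_, ?_⟩, he, z ^ m, pow_mem hz m,
    pow_ne_zero _ hz0, ?_⟩
  · intro τ
    simp only [Pi.pow_apply]
    rw [← pow_mul, mul_comm m n, hr.pow_eq]
  · intro γ τ
    simp only [Pi.pow_apply]
    rw [hr.char, mul_pow, CharSoft_stdAddChar_pow]
    rfl
  · rw [← pow_mul, mul_comm m n]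

end Fermat.Agent.G1.B
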