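import Fermat.Agent.G1.B.Final
import Fermat.Agent.G1.A.Export
import Fermat.Agent.G1.A.CharInjSurj
import Fermat.Agent.G1.A.IsKummerOfChar

/-!
# G1-A + G1-B : the structure `G1.H.CharTheory1 M`, unconditionally
-/

set_option autoImplicit false

open CongruenceSubgroup ModularCurve UpperHalfPlane
open scoped MatrixGroups

namespace Fermat.Agent.G1.B

open Fermat.Agent.GR Fermat.Agent.G1 Fermat.Agent.G1.A Fermat.Agent.G1.H Fermat.Agent.S28
open Fermat.Agent.S48.Per (Kills1)

/-- **the character theory of `Γ₁(M)`**, unconditionally. -/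
theorem charTheory1 (M : ℕ) [NeZero M] : CharTheory1 M :=
  charTheory1_of_A M
    (fun n _ _u hu => A.exists_char hu)
    (fun n _ _u _φ h hk => A.isKummer_of_hasChar h hk)
    (fun n _ _u h => A.kummerEquiv_one_of_hasChar_zero h)
    (fun n _ φ hk => A.exists_hasChar φ hk)

end Fermat.Agent.G1.B
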