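import Fermat.Agent.G1.B.Concrete

/-!
# G1-B: conjugation by `Γ₀(M)` on `Γ₁(M)` as a correspondence (diamond operators on characters)

`(⟨σ⟩ φ)(γ) = φ (σ γ σ⁻¹)`; for `f ∣ σ = χ(σ 1 1) f` the periods satisfy
`per (f ∣ σ) γ = per f (σ γ σ⁻¹)`.
-/

set_option autoImplicit false

open CongruenceSubgroup Matrix.SpecialLinearGroup UpperHalfPlane
open scoped MatrixGroups

namespace Fermat.Agent.G1.B

variable {M : ℕ}

/-- `Γ₁(M)` is normalised by `Γ₀(M)`.  [`Gamma0_entry_mul`, `mem_Gamma1_of_entry`;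
`d(σ) d(σ⁻¹) = d(1) = 1`.] -/
theorem conj_mem_Gamma1 {σ : SL(2, ℤ)} (hσ : σ ∈ Gamma0 M) (γ : Gamma1 M) :
    σ * (γ : SL(2, ℤ)) * σ⁻¹ ∈ Gamma1 M := by
  have hγ1 := (Gamma1_mem M _).1 γ.2
  have hγ0 : (γ : SL(2, ℤ)) ∈ Gamma0 M := (Gamma0_mem).2 hγ1.2.2
  have hσγ : σ * (γ : SL(2, ℤ)) ∈ Gamma0 M := mul_mem hσ hγ0
  apply mem_Gamma1_of_entry (mul_mem hσγ (inv_mem hσ))
  rw [Gamma0_entry_mul hσγ, Gamma0_entry_mul hσ, hγ1.2.1, mul_one, ← Gamma0_entry_mul hσ,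
    mul_inv_cancel]
  simp

/-- conjugation by `σ ∈ Γ₀(M)`. -/
noncomputable def repsConj (σ : SL(2, ℤ)) (hσ : σ ∈ Gamma0 M) : Reps1 M where
  ι := Unit
  fin := inferInstance
  α _ := mapGL ℝ σ
  det_pos _ := by
    simp
  perm _ := 1
  coc γ _ := ⟨σ * (γ : SL(2, ℤ)) * σ⁻¹, conj_mem_Gamma1 hσ γ⟩
  rel γ _ := by
    rw [← map_mul, ← map_mul, inv_mul_cancel_right]
  perm_mul _ _ _ := rfl

@[simp] theorem repsConj_α (σ : SL(2, ℤ)) (hσ : σ ∈ Gamma0 M) (i : Unit) :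
    (repsConj σ hσ).α i = mapGL ℝ σ := rfl

theorem repsConj_op_apply (σ : SL(2, ℤ)) (hσ : σ ∈ Gamma0 M) {B : Type*} [AddCommGroup B]
    (φ : Additive (Gamma1 M) →+ B) (γ : Gamma1 M) :
    (repsConj σ hσ).op B φ (Additive.ofMul γ) =
      φ (Additive.ofMul ⟨σ * (γ : SL(2, ℤ)) * σ⁻¹, conj_mem_Gamma1 hσ γ⟩) := by
  rw [Reps1.op_apply]
  exact Fintype.sum_unique (ι := Unit) _

/-- the diamond operator `⟨p⟩` on characters of `Γ₁(M)`. -/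
noncomputable def repsD (p : ℕ) [Fact p.Prime] (hpM : ¬ p ∣ M) : Reps1 M :=
  repsConj (sigmaP M p hpM) (sigmaP_mem M p hpM)

end Fermat.Agent.G1.B
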