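import Fermat.Agent.G1.B.HeckeExp
import Fermat.Agent.G1.B.Diamond

/-!
# G1-B, file K6 (port of GR/B/KummerMain.lean): (B1) and (B3) for `T_p`, `p ∤ M`, on `Γ₁(M)`

The formal multiplicative Hecke operator `heckeMulT1 p ζ δ`, `δ = ⟨p⟩ = δ_{p⁻¹}`, preserves the function
field `FF1 ℂ M` and acts on the characters `χ_u` by the transfer formula `Reps1.op`.
-/

set_option autoImplicit false

open UpperHalfPlane ModularCurve Matrix.SpecialLinearGroup CongruenceSubgroup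
open scoped MatrixGroups Manifold

namespace Fermat.Agent.G1.B

open Fermat.Agent.S24 Fermat.Agent.S28 Fermat.Agent.G1.A Fermat.Agent.GR Fermat.Agent.GR.B

variable {M : ℕ}

/-- the upper left entry of `σ_p` is `p⁻¹` (`sigmaP_entry`, `det = 1`, `σ₁₀ ≡ 0`). -/
theorem sigmaP_upL (M p : ℕ) [Fact p.Prime] (hpM : ¬ p ∣ M) (h : p.Coprime M) :
    (((unitP M p h)⁻¹ : (ZMod M)ˣ) : ZMod M) = ((sigmaP M p hpM 0 0 : ℤ) : ZMod M) := by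
  have h10 : ((sigmaP M p hpM 1 0 : ℤ) : ZMod M) = 0 := (Gamma0_mem).1 (sigmaP_mem M p hpM)
  have h11 := sigmaP_entry M p hpM
  have hdet : (sigmaP M p hpM 0 0 : ℤ) * sigmaP M p hpM 1 1 -
      sigmaP M p hpM 0 1 * sigmaP M p hpM 1 0 = 1 := by
    have := (sigmaP M p hpM).det_coe
    rwa [Matrix.det_fin_two] at this
  have hdet' := congrArg (Int.cast : ℤ → ZMod M) hdet
  push_cast at hdet'
  rw [h10, h11, mul_zero, sub_zero] at hdet'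
  apply Units.inv_eq_of_mul_eq_one_left
  exact hdet'

/-- `δ = ⟨p⟩` realises `σ_p`. -/
theorem realises_sigmaP [NeZero M] (hM1 : MemFF1 M) (p : ℕ) [Fact p.Prime] (hpM : ¬ p ∣ M)
    (h : p.Coprime M) {δ : FF1 ℂ M ≃ₐ[ℂ] FF1 ℂ M} (hδ : IsDiamond ℂ M (unitP M p h)⁻¹ δ) :
    Realises M (sigmaP M p hpM) δ :=
  IsDiamond.realises hM1 (sigmaP_mem M p hpM) (sigmaP_upL M p hpM h) hδ

theorem heckeMulT1_mul (p : ℕ) [NeZero p] (ζ : ℂˣ) (hζ : IsPrimitiveRoot ζ p)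
    (δ : FF1 ℂ M ≃ₐ[ℂ] FF1 ℂ M) (u v : FF1 ℂ M) :
    heckeMulT1 p ζ δ (u * v) = heckeMulT1 p ζ δ u * heckeMulT1 p ζ δ v := by
  unfold heckeMulT1
  rw [map_mul δ, MulMemClass.coe_mul, MulMemClass.coe_mul, map_mul, normT_mul p ζ hζ]
  ring

theorem heckeMulT1_ne_zero (p : ℕ) [NeZero p] (ζ : ℂˣ) (hζ : IsPrimitiveRoot ζ p)
    (δ : FF1 ℂ M ≃ₐ[ℂ] FF1 ℂ M) {u : FF1 ℂ M} (hu : u ≠ 0) : heckeMulT1 p ζ δ u ≠ 0 := by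
  unfold heckeMulT1
  apply mul_ne_zero
  · intro h
    have h1 : ((δ u : FF1 ℂ M) : LaurentSeries ℂ) = 0 := by
      apply qExpand_injective (R := ℂ) p
      rw [h, map_zero]
    have h2 : δ u = 0 := Subtype.ext h1
    exact hu ((map_eq_zero_iff δ δ.injective).1 h2)
  · have hu' : (u : LaurentSeries ℂ) ≠ 0 := fun h => hu (Subtype.ext h)
    exact right_ne_zero_of_mul (heckeMulT_ne_zero p ζ hζ hu')

/-- the expansion of `(repsT1 p hpM).mulFun a` is `heckeMulT1 p ζ δ x` if `x` is the expansion of `a`. -/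
theorem isExp_mulFun_heckeMulT1 [NeZero M] (hM1 : MemFF1 M) (p : ℕ) [Fact p.Prime] (hpM : ¬ p ∣ M)
    (h : p.Coprime M) {δ : FF1 ℂ M ≃ₐ[ℂ] FF1 ℂ M} (hδ : IsDiamond ℂ M (unitP M p h)⁻¹ δ) (ζ : ℂˣ)
    (hζ : IsPrimitiveRoot ζ p) {a : ℍ → ℂ} {x : FF1 ℂ M} (ha : IsModFun M a)
    (hx : IsExp 1 a (x : LaurentSeries ℂ)) :
    IsExp 1 ((repsT1 p hpM).mulFun a) (heckeMulT1 p ζ δ x) := by
  have H' := realises_sigmaP hM1 p hpM h hδ a x ha hx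
  have h1 := isExp_mulFun_repsT1 p hpM hx H'
  unfold heckeMulT1
  rw [normT_eq_of_isPrimitiveRoot p ζ (rootU 1 p) hζ (isPrimitiveRoot_rootU p)]
  exact h1

/-- **(B1)** for `T_p`, `p ∤ M`. -/
theorem heckeMulT1_mem_FF1 [NeZero M] (hM1 : MemFF1 M) (p : ℕ) [Fact p.Prime] (hpM : ¬ p ∣ M)
    (h : p.Coprime M) {δ : FF1 ℂ M ≃ₐ[ℂ] FF1 ℂ M} (hδ : IsDiamond ℂ M (unitP M p h)⁻¹ δ) (ζ : ℂˣ)
    (hζ : IsPrimitiveRoot ζ p) (u : FF1 ℂ M) : heckeMulT1 p ζ δ u ∈ FF1 ℂ M := by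
  obtain ⟨a, b, fa, fb, ha, hb, hea, heb, hfb0, hufb⟩ := exists_modFun_frac u.2
  have hfa : fa ∈ FF1 ℂ M := hM1 a fa ha hea
  have hfb : fb ∈ FF1 ℂ M := hM1 b fb hb heb
  have hmod : ∀ (c : ℍ → ℂ) (fc : LaurentSeries ℂ) (hfc : fc ∈ FF1 ℂ M), IsModFun M c →
      IsExp 1 c fc → heckeMulT1 p ζ δ ⟨fc, hfc⟩ ∈ FF1 ℂ M := by
    intro c fc hfc hc hec
    exact hM1 _ _ ((repsT1 p hpM).isModFun_mulFun (repsT1_isInt p hpM) hc)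
      (isExp_mulFun_heckeMulT1 hM1 p hpM h hδ ζ hζ (x := ⟨fc, hfc⟩) hc hec)
  have h1 : heckeMulT1 p ζ δ u * heckeMulT1 p ζ δ ⟨fb, hfb⟩ = heckeMulT1 p ζ δ ⟨fa, hfa⟩ := by
    rw [← heckeMulT1_mul p ζ hζ]
    congr 1
    exact Subtype.ext hufb
  have hfb0' : (⟨fb, hfb⟩ : FF1 ℂ M) ≠ 0 := fun h0 => hfb0 (congrArg Subtype.val h0)
  have h2 : heckeMulT1 p ζ δ u = heckeMulT1 p ζ δ ⟨fa, hfa⟩ / heckeMulT1 p ζ δ ⟨fb, hfb⟩ := by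
    rw [eq_div_iff (heckeMulT1_ne_zero p ζ hζ δ hfb0'), h1]
  rw [h2]
  exact div_mem (hmod a fa hfa ha hea) (hmod b fb hfb hb heb)

theorem kummerEquiv1_heckeMulT1 [NeZero M] (hM1 : MemFF1 M) (p : ℕ) [Fact p.Prime] (hpM : ¬ p ∣ M)
    (h : p.Coprime M) {δ : FF1 ℂ M ≃ₐ[ℂ] FF1 ℂ M} (hδ : IsDiamond ℂ M (unitP M p h)⁻¹ δ) (ζ : ℂˣ)
    (hζ : IsPrimitiveRoot ζ p) {n : ℕ} {u u' : FF1 ℂ M}
    (hk : KummerEquiv1 M n (u : LaurentSeries ℂ) (u' : LaurentSeries ℂ)) :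
    KummerEquiv1 M n (heckeMulT1 p ζ δ u) (heckeMulT1 p ζ δ u') := by
  obtain ⟨z, hz, hz0, hu'⟩ := hk
  have hz0' : (⟨z, hz⟩ : FF1 ℂ M) ≠ 0 := fun h0 => hz0 (congrArg Subtype.val h0)
  refine ⟨heckeMulT1 p ζ δ ⟨z, hz⟩, heckeMulT1_mem_FF1 hM1 p hpM h hδ ζ hζ _,
    heckeMulT1_ne_zero p ζ hζ δ hz0', ?_⟩
  have h1 : heckeMulT1 p ζ δ (1 : FF1 ℂ M) = 1 := by
    have h2 : heckeMulT1 p ζ δ (1 : FF1 ℂ M) * heckeMulT1 p ζ δ (1 : FF1 ℂ M) =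
        heckeMulT1 p ζ δ (1 : FF1 ℂ M) * 1 := by
      rw [← heckeMulT1_mul p ζ hζ, mul_one, mul_one]
    exact mul_left_cancel₀ (heckeMulT1_ne_zero p ζ hζ δ one_ne_zero) h2
  have hpow : ∀ k : ℕ, heckeMulT1 p ζ δ ((⟨z, hz⟩ : FF1 ℂ M) ^ k) =
      heckeMulT1 p ζ δ ⟨z, hz⟩ ^ k := by
    intro k
    induction k with
    | zero => rw [pow_zero, pow_zero, h1]
    | succ k ih => rw [pow_succ, pow_succ, heckeMulT1_mul p ζ hζ, ih]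
  have hu'' : u' = u * (⟨z, hz⟩ : FF1 ℂ M) ^ n := Subtype.ext hu'
  rw [hu'', heckeMulT1_mul p ζ hζ, hpow]

/-- **(B3)** for `T_p`, `p ∤ M`. -/
theorem hasChar_heckeMulT1 [NeZero M] (hM1 : MemFF1 M) (p : ℕ) [Fact p.Prime] (hpM : ¬ p ∣ M)
    (h : p.Coprime M) {δ : FF1 ℂ M ≃ₐ[ℂ] FF1 ℂ M} (hδ : IsDiamond ℂ M (unitP M p h)⁻¹ δ) (ζ : ℂˣ)
    (hζ : IsPrimitiveRoot ζ p) {n : ℕ} [NeZero n] {u : FF1 ℂ M}
    {φ : Additive (Gamma1 M) →+ ZMod n} (hc : HasChar M n (u : LaurentSeries ℂ) φ) :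
    HasChar M n (heckeMulT1 p ζ δ u) ((repsT1 p hpM).op (ZMod n) φ) := by
  obtain ⟨c, w, f, hr, he, hk⟩ := hc
  have hf : f ∈ FF1 ℂ M := hM1 c f hr.modFun he
  exact ⟨(repsT1 p hpM).mulFun c, (repsT1 p hpM).mulFun w, heckeMulT1 p ζ δ ⟨f, hf⟩,
    (repsT1 p hpM).hasRoot_mulFun (repsT1_isInt p hpM) hr,
    isExp_mulFun_heckeMulT1 hM1 p hpM h hδ ζ hζ (x := ⟨f, hf⟩) hr.modFun he,
    kummerEquiv1_heckeMulT1 hM1 p hpM h hδ ζ hζ (u := ⟨f, hf⟩) hk⟩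

end Fermat.Agent.G1.B
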