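import Fermat.Agent.G1.H.Build
import Fermat.Agent.G1.B.KummerMain
import Fermat.Agent.G1.B.Add

/-!
# G1-B : export

* `charTheory1_of` : the structure `G1.H.CharTheory1 M` from (M1) `MemFF1 M` and the G1-A fields
  (`algRel`, `exists_char`, `isKummer`, `zero`, `surj`) in hypothesis form.
* `isExp_addFun_diamond` : the `q`-expansion of the additive Hecke operator in terms of `⟨p⟩`.
-/

set_option autoImplicit false
set_option linter.unusedVariables false

open CongruenceSubgroup ModularCurve UpperHalfPlane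
open scoped MatrixGroups

namespace Fermat.Agent.G1.B

open Fermat.Agent.GR Fermat.Agent.G1 Fermat.Agent.G1.A Fermat.Agent.G1.H Fermat.Agent.S28
open Fermat.Agent.S48.Per (Kills1)

/-- the G1-B half of `CharTheory1 M`; the G1-A half is in hypothesis form. -/
theorem charTheory1_of (M : ℕ) [NeZero M] (hM1 : MemFF1 M) (algRel : C.AlgRel ℂ M)
    (exists_char : ∀ (n : ℕ) [NeZero n] (u : LaurentSeries ℂ), IsKummer1 (M := M) n u →
      ∃ φ : Additive (Gamma1 M) →+ ZMod n, Kills1 φ ∧ HasChar M n u φ)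
    (isKummer : ∀ (n : ℕ) [NeZero n] (u : LaurentSeries ℂ) (φ : Additive (Gamma1 M) →+ ZMod n),
      HasChar M n u φ → Kills1 φ → IsKummer1 (M := M) n u)
    (zero : ∀ (n : ℕ) [NeZero n] (u : LaurentSeries ℂ), HasChar M n u 0 → KummerEquiv1 M n 1 u)
    (surj : ∀ (n : ℕ) [NeZero n] (φ : Additive (Gamma1 M) →+ ZMod n), Kills1 φ →
      ∃ u : LaurentSeries ℂ, HasChar M n u φ) : CharTheory1 M where
  algRel := algRel
  diamondExists := diamondExists hM1
  exists_char := exists_char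
  isKummer := isKummer
  unique := fun n _ u φ φ' h h' => HasChar.unique h h'
  mul := fun n _ u u' φ φ' h h' => HasChar.mul h h'
  inv := fun n _ u φ h => HasChar.inv hM1 h
  congr := fun n _ u u' φ h h' => HasChar.congr h h'
  zero := zero
  surj := surj
  heckeMulT1_mem := fun p _ hpM ζ hζ δ hδ u => heckeMulT1_mem_FF1 hM1 p hpM _ hδ ζ hζ u
  hasChar_heckeMulT1 := fun p _ hpM ζ hζ δ hδ n _ u φ h =>
    hasChar_heckeMulT1 hM1 p hpM _ hδ ζ hζ h
  hasChar_diam := fun p _ hpM δ hδ n _ u φ φ' h hφ => by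
    have h1 := hasChar_diamond hM1 (sigmaP_mem M p hpM) (realises_sigmaP hM1 p hpM _ hδ) h
    have h2 : φ' = φ.comp (MonoidHom.toAdditive (conjG (sigmaP M p hpM) (sigmaP_mem M p hpM))) := by
      ext γ
      exact hφ (Additive.toMul γ) _ rfl
    rw [h2]
    exact h1

/-- **(B+)** the `q`-expansion of the additive `T_p` on modular functions for `Γ₁(M)`:
`T_p x = V_p (⟨p⟩ x) + p U_p x`. -/
theorem isExp_addFun_diamond {M : ℕ} [NeZero M] (hM1 : MemFF1 M) (p : ℕ) [Fact p.Prime]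
    (hpM : ¬ p ∣ M) (h : p.Coprime M) {δ : FF1 ℂ M ≃ₐ[ℂ] FF1 ℂ M}
    (hδ : IsDiamond ℂ M (unitP M p h)⁻¹ δ) {f : ℍ → ℂ} {x : FF1 ℂ M} (hf : IsModFun M f)
    (hx : IsExp 1 f (x : LaurentSeries ℂ)) :
    IsExp 1 ((repsT1 p hpM).addFun f)
      (qExpand ℂ p ((δ x : FF1 ℂ M) : LaurentSeries ℂ)
        + (p : LaurentSeries ℂ) * Uop p (x : LaurentSeries ℂ)) :=
  isExp_addFun_repsT1 p hpM hx (realises_sigmaP hM1 p hpM h hδ f x hf hx)

end Fermat.Agent.G1.B
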