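import Fermat.Agent.G1.B.Export
import Fermat.Agent.G1.A.MemFF1
import Fermat.Agent.G1.A.AlgRel

/-!
# G1-B : unconditional export ((M1) = `G1.A.memFF1` and `G1.A.algRel` plugged in)
-/

set_option autoImplicit false

open CongruenceSubgroup ModularCurve UpperHalfPlane
open scoped MatrixGroups

namespace Fermat.Agent.G1.B

open Fermat.Agent.GR Fermat.Agent.G1 Fermat.Agent.G1.A Fermat.Agent.G1.H Fermat.Agent.S28
open Fermat.Agent.S48.Per (Kills1)

/-- **(Bd)** the diamond operators exist over `ℂ`, unconditionally. -/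
theorem diamondExistsC (M : ℕ) [NeZero M] : DiamondExists ℂ M := diamondExists (memFF1 M)

/-- `CharTheory1 M` from the four remaining G1-A fields. -/
theorem charTheory1_of_A (M : ℕ) [NeZero M]
    (exists_char : ∀ (n : ℕ) [NeZero n] (u : LaurentSeries ℂ), IsKummer1 (M := M) n u →
      ∃ φ : Additive (Gamma1 M) →+ ZMod n, Kills1 φ ∧ HasChar M n u φ)
    (isKummer : ∀ (n : ℕ) [NeZero n] (u : LaurentSeries ℂ) (φ : Additive (Gamma1 M) →+ ZMod n),
      HasChar M n u φ → Kills1 φ → IsKummer1 (M := M) n u)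
    (zero : ∀ (n : ℕ) [NeZero n] (u : LaurentSeries ℂ), HasChar M n u 0 → KummerEquiv1 M n 1 u)
    (surj : ∀ (n : ℕ) [NeZero n] (φ : Additive (Gamma1 M) →+ ZMod n), Kills1 φ →
      ∃ u : LaurentSeries ℂ, HasChar M n u φ) : CharTheory1 M :=
  charTheory1_of M (memFF1 M) (algRel M) exists_char isKummer zero surj

end Fermat.Agent.G1.B
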