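import Fermat.Agent.G1.B.HeckeFun
import Fermat.Agent.GR.B.HeckeExp

/-!
# G1-B, file K5 (port of GR/B/HeckeExp.lean): `q`-expansion of the multiplicative (and additive) Hecke
operator `T_p`, `p ∤ M`, on functions for `Γ₁(M)`
-/

set_option autoImplicit false

open UpperHalfPlane ModularCurve Matrix.SpecialLinearGroup CongruenceSubgroup
open scoped MatrixGroups Manifold

namespace Fermat.Agent.G1.B

open Fermat.Agent.S24 Fermat.Agent.S28 Fermat.Agent.G1.A Fermat.Agent.GR Fermat.Agent.GR.B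

variable {M : ℕ}

open P2MW.S_ModularForm_heckeT_slash_eq_self_of_mem_Gamma0.ModularForm.HeckeSlashInvariance in
/-- the factors of `(repsT1 p hpM).mulFun f`. -/
theorem mulFun_repsT1_eq (p : ℕ) [Fact p.Prime] (hpM : ¬ p ∣ M) (f : ℍ → ℂ) :
    (repsT1 p hpM).mulFun f =
      (fun τ => f (sigmaP M p hpM • (ModularForm.heckeDiagMatrix p • τ))) *
      (fun τ => ∏ x : ZMod p, f (ModularForm.heckeMatrix p x.val • τ)) := by
  funext τ
  rw [Reps1.mulFun_apply, Pi.mul_apply]
  have h := Fintype.prod_option (fun x : OnePoint (ZMod p) => f ((repsT1 p hpM).α x • τ))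
  refine h.trans ?_
  congr 1
  · show f ((mapGL ℝ (sigmaP M p hpM) * heckeRep p OnePoint.infty) • τ) = _
    rw [mul_smul, heckeRep_infty]
    rfl
  · refine Finset.prod_congr rfl (fun x _ => ?_)
    show f ((mapGL ℝ (1 : SL(2, ℤ)) * heckeRep p (x : OnePoint (ZMod p))) • τ) = _
    rw [map_one, one_mul, heckeRep_coe]

/-- `q`-expansion of the multiplicative `T_p`: `s'` is the expansion of `f ∘ σ_p`. -/
theorem isExp_mulFun_repsT1 (p : ℕ) [Fact p.Prime] (hpM : ¬ p ∣ M) {f : ℍ → ℂ}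
    {s s' : LaurentSeries ℂ} (H : IsExp 1 f s)
    (H' : IsExp 1 (fun τ => f (sigmaP M p hpM • τ)) s') :
    IsExp 1 ((repsT1 p hpM).mulFun f) (qExpand ℂ p s' * normT p (rootU 1 p) s) := by
  have hp : p.Prime := Fact.out
  have : NeZero p := ⟨hp.ne_zero⟩
  have h1 := (isExp_comp_heckeDiagMatrix p H').mul (HeckeExp_isExp_prod p H)
  rw [mulFun_repsT1_eq]
  exact h1

end Fermat.Agent.G1.B
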