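import Fermat.Agent.GR.B.HeckeFun
import Fermat.Agent.G1.A.ModDefs
import Fermat.Agent.G1.B.Concrete

/-!
# G1-B, Kummer side, file K4: the multiplicative Hecke operator on functions on `ℍ`

`(H.mulFun f)(τ) = ∏ i, f (α i • τ)`.
-/

set_option autoImplicit false

open UpperHalfPlane ModularCurve Matrix.SpecialLinearGroup CongruenceSubgroup
open scoped MatrixGroups Manifold

namespace Fermat.Agent.G1.B

open Fermat.Agent.S24 Fermat.Agent.S28 Fermat.Agent.G1.A Fermat.Agent.GR.B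

variable {N : ℕ}

/-- the representatives are integral matrices. -/
def Reps1.IsInt (H : Reps1 N) : Prop :=
  ∀ i, ∃ A : Matrix (Fin 2) (Fin 2) ℤ,
    (H.α i : Matrix (Fin 2) (Fin 2) ℝ) = A.map (Int.cast : ℤ → ℝ)

open P2MW.S_ModularForm_heckeT_slash_eq_self_of_mem_Gamma0.ModularForm.HeckeSlashInvariance in
theorem repsT1_isInt (p : ℕ) [Fact p.Prime] (hpN : ¬ p ∣ N) : (repsT1 p hpN).IsInt := by
  have key : ∀ y : OnePoint (ZMod p), ∃ A : Matrix (Fin 2) (Fin 2) ℤ,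
      ((mapGL ℝ (twist N p hpN y) * heckeRep p y : GL (Fin 2) ℝ) : Matrix (Fin 2) (Fin 2) ℝ)
        = A.map (Int.cast : ℤ → ℝ) := by
    intro y
    obtain ⟨A, hA⟩ : ∃ A : Matrix (Fin 2) (Fin 2) ℤ,
        (heckeRep p y : Matrix (Fin 2) (Fin 2) ℝ) = A.map (Int.cast : ℤ → ℝ) :=
      GR.B.repsT_isInt p hpN y
    refine ⟨(twist N p hpN y : Matrix (Fin 2) (Fin 2) ℤ) * A, ?_⟩
    rw [Matrix.GeneralLinearGroup.coe_mul, hA]
    ext i j
    simp [Matrix.mul_apply, Fin.sum_univ_two]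
  intro x
  exact key x

/-- The multiplicative Hecke operator on functions. -/
noncomputable def Reps1.mulFun (H : Reps1 N) (f : ℍ → ℂ) : ℍ → ℂ := fun τ => ∏ i, f (H.α i • τ)

theorem Reps1.mulFun_apply (H : Reps1 N) (f : ℍ → ℂ) (τ : ℍ) :
    H.mulFun f τ = ∏ i, f (H.α i • τ) := rfl

theorem Reps1.mulFun_mul (H : Reps1 N) (f g : ℍ → ℂ) :
    H.mulFun (f * g) = H.mulFun f * H.mulFun g := by
  funext τ
  simp [Reps1.mulFun, Finset.prod_mul_distrib]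

theorem Reps1.mulFun_pow (H : Reps1 N) (f : ℍ → ℂ) (n : ℕ) :
    H.mulFun (f ^ n) = H.mulFun f ^ n := by
  funext τ
  simp [Reps1.mulFun, Finset.prod_pow]

theorem HeckeFun_mdiff_comp (H : Reps1 N) {f : ℍ → ℂ} (hf : MDiff f) (i : H.ι) :
    MDiff (fun τ : ℍ => f (H.α i • τ)) :=
  hf.comp (UpperHalfPlane.mdifferentiable_smul (H.det_pos i))

theorem HeckeFun_mulFun_eq_prod (H : Reps1 N) (f : ℍ → ℂ) :
    H.mulFun f = ∏ i, (fun τ : ℍ => f (H.α i • τ)) := by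
  funext τ
  rw [Finset.prod_apply]
  rfl

theorem Reps1.mdiff_mulFun (H : Reps1 N) {f : ℍ → ℂ} (hf : MDiff f) : MDiff (H.mulFun f) := by
  rw [HeckeFun_mulFun_eq_prod]
  exact Subring.prod_mem Hol (fun i _ => HeckeFun_mdiff_comp H hf i)

/-- `∏ f ∘ α i ≠ 0` (identity theorem: the ring of holomorphic functions is a domain). -/
theorem Reps1.mulFun_ne_zero (H : Reps1 N) {f : ℍ → ℂ} (hf : MDiff f) (h0 : ∃ τ, f τ ≠ 0) :
    ∃ τ, H.mulFun f τ ≠ 0 := by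
  obtain ⟨τ0, hτ0⟩ := h0
  let F : H.ι → Hol := fun i => ⟨fun τ : ℍ => f (H.α i • τ), HeckeFun_mdiff_comp H hf i⟩
  have hF : ∀ i, F i ≠ 0 := by
    intro i h
    have h1 := congrArg (fun g : Hol => (g : ℍ → ℂ) ((H.α i)⁻¹ • τ0)) h
    simp only [F, smul_inv_smul] at h1
    exact hτ0 h1
  have hprod : (∏ i, F i) ≠ 0 := by
    intro h
    have h1 := congrArg (taylorHom τ0) h
    rw [map_prod, map_zero, Finset.prod_eq_zero_iff] at h1
    obtain ⟨i, -, hi⟩ := h1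
    exact hF i (taylorHom_injective τ0 (hi.trans (map_zero _).symm))
  by_contra hcon
  push Not at hcon
  apply hprod
  apply Subtype.ext
  rw [← Subring.subtype_apply, map_prod]
  funext τ
  have := hcon τ
  rw [HeckeFun_mulFun_eq_prod] at this
  exact this

/-- transformation of `∏ w ∘ α i` when `w` has the character `φ`. -/
theorem Reps1.mulFun_smul (H : Reps1 N) {n : ℕ} [NeZero n] {w : ℍ → ℂ}
    {φ : Additive (Gamma1 N) →+ ZMod n}
    (hw : ∀ (γ : Gamma1 N) (τ : ℍ),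
      w ((γ : SL(2, ℤ)) • τ) = ZMod.stdAddChar (φ (Additive.ofMul γ)) * w τ)
    (γ : Gamma1 N) (τ : ℍ) :
    H.mulFun w ((γ : SL(2, ℤ)) • τ) =
      ZMod.stdAddChar (H.op (ZMod n) φ (Additive.ofMul γ)) * H.mulFun w τ :=
  H.prod_comp_smul (ZMod.stdAddChar (N := n)).toMonoidHom φ w hw γ τ

theorem Reps1.mulFun_invariant (H : Reps1 N) {f : ℍ → ℂ}
    (hf : ∀ γ ∈ Gamma1 N, ∀ τ : ℍ, f (γ • τ) = f τ) :
    ∀ γ ∈ Gamma1 N, ∀ τ : ℍ, H.mulFun f (γ • τ) = H.mulFun f τ := by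
  intro γ hγ τ
  have := H.prod_comp_smul (1 : Multiplicative ℤ →* ℂ) (0 : Additive (Gamma1 N) →+ ℤ) f
    (fun γ z => by rw [MonoidHom.one_apply, one_mul]; exact hf γ γ.2 z) ⟨γ, hγ⟩ τ
  rw [MonoidHom.one_apply, one_mul] at this
  exact this

/-- criterion: the level at the cusps does not matter. -/
theorem isModFun_of_exists_level [NeZero N] {F : ℍ → ℂ} (h1 : MDiff F)
    (h2 : ∀ γ ∈ Gamma1 N, ∀ τ : ℍ, F (γ • τ) = F τ)
    (h3 : ∀ γ : SL(2, ℤ), ∃ M : ℕ, 0 < M ∧ (fun τ : ℍ => F (γ • τ)) ∈ MerInf M) :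
    IsModFun N F := by
  refine ⟨h1, h2, fun γ => ?_⟩
  obtain ⟨M, hM, hmem⟩ := h3 γ
  have : NeZero (N * M) := ⟨Nat.mul_ne_zero (NeZero.ne N) hM.ne'⟩
  have h4 : (fun τ : ℍ => F (γ • τ)) ∈ MerInf (N * M) :=
    mem_MerInf_of_dvd (Dvd.intro_left N rfl) hmem
  refine mem_MerInf_of_periodic (Dvd.intro M rfl) h4 fun τ => ?_
  have h5 : γ * ModularGroup.T ^ (N : ℤ) * γ⁻¹ ∈ Gamma1 N := by
    have h1 : ModularGroup.T ^ (N : ℤ) ∈ Gamma N := by
      simpa using ModularGroup_T_pow_mem_Gamma (N : ℤ) (N : ℤ) dvd_rfl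
    have h2 := (Gamma_normal N).conj_mem _ h1 γ
    rw [Gamma_mem] at h2
    rw [Gamma1_mem]
    exact ⟨h2.1, h2.2.2.2, h2.2.2.1⟩
  have h6 : ((N : ℕ) : ℝ) +ᵥ τ = ModularGroup.T ^ (N : ℤ) • τ := by
    rw [UpperHalfPlane.modular_T_zpow_smul]
    simp
  have h7 : γ • (ModularGroup.T ^ (N : ℤ) • τ) =
      (γ * ModularGroup.T ^ (N : ℤ) * γ⁻¹) • (γ • τ) := by
    rw [← mul_smul, ← mul_smul, inv_mul_cancel_right]
  change F (γ • (((N : ℕ) : ℝ) +ᵥ τ)) = F (γ • τ)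
  rw [h6, h7, h2 _ h5]

theorem Reps1.isModFun_mulFun [NeZero N] (H : Reps1 N) (hH : H.IsInt) {f : ℍ → ℂ}
    (hf : IsModFun N f) : IsModFun N (H.mulFun f) := by
  refine isModFun_of_exists_level (H.mdiff_mulFun hf.1) (H.mulFun_invariant hf.2.1) fun γ => ?_
  have key : ∀ i, ∃ δ : ℕ, 0 < δ ∧ (fun τ : ℍ => f (H.α i • (γ • τ))) ∈ MerInf (N * δ) := by
    intro i
    obtain ⟨A, hA⟩ := hH i
    have hdet : 0 < A.det := by
      have h1 := H.det_pos i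
      rw [Matrix.GeneralLinearGroup.val_det_apply, hA, ← Int.cast_det] at h1
      exact_mod_cast h1
    exact exists_mem_MerInf_comp_smul hf.2.2 (H.α i) A hA hdet γ
  choose δ hδ hmem using key
  have hpos : 0 < N * ∏ i, δ i :=
    Nat.mul_pos (Nat.pos_of_ne_zero (NeZero.ne N)) (Finset.prod_pos fun i _ => hδ i)
  have : NeZero (N * ∏ i, δ i) := ⟨hpos.ne'⟩
  refine ⟨N * ∏ i, δ i, hpos, ?_⟩
  have h1 : (fun τ : ℍ => H.mulFun f (γ • τ)) = ∏ i, (fun τ : ℍ => f (H.α i • (γ • τ))) := by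
    funext τ
    rw [Finset.prod_apply]
    rfl
  rw [h1]
  refine Subring.prod_mem _ fun i _ => ?_
  exact mem_MerInf_of_dvd (Nat.mul_dvd_mul_left N (Finset.dvd_prod_of_mem δ (Finset.mem_univ i)))
    (hmem i)

theorem Reps1.hasRoot_mulFun [NeZero N] (H : Reps1 N) (hH : H.IsInt) {n : ℕ} [NeZero n]
    {c w : ℍ → ℂ} {φ : Additive (Gamma1 N) →+ ZMod n} (h : HasRoot N n c w φ) :
    HasRoot N n (H.mulFun c) (H.mulFun w) (H.op (ZMod n) φ) where
  modFun := H.isModFun_mulFun hH h.modFun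
  ne_zero := H.mulFun_ne_zero h.modFun.1 h.ne_zero
  mdiff := H.mdiff_mulFun h.mdiff
  pow_eq τ := by
    rw [Reps1.mulFun_apply, Reps1.mulFun_apply, ← Finset.prod_pow]
    exact Finset.prod_congr rfl fun i _ => h.pow_eq _
  char := H.mulFun_smul h.char

end Fermat.Agent.G1.B
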