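import Fermat.Agent.G1.B.Reps

/-!
# G1-B, file 3 (port of GR/B/Kills.lean): Hecke operators preserve "kills elliptic and parabolic elements"
-/

set_option autoImplicit false

open CongruenceSubgroup Matrix.SpecialLinearGroup UpperHalfPlane
open scoped MatrixGroups

namespace Fermat.Agent.G1.B

private theorem kills_sum_stable {ι M : Type*} [Fintype ι] [AddCommMonoid M] (σ : Equiv.Perm ι)
    (g : ι → M)
    (h : ∀ i, ∑ k ∈ Finset.range (Function.minimalPeriod σ i), g ((σ ^ k) i) = 0) :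
    ∀ (n : ℕ) (s : Finset ι), s.card = n → (∀ i ∈ s, σ i ∈ s) → ∑ i ∈ s, g i = 0 := by
  classical
  intro n
  induction n using Nat.strong_induction_on with
  | _ n ih =>
    intro s hs hst
    rcases s.eq_empty_or_nonempty with rfl | ⟨i, hi⟩
    · simp
    set r := Function.minimalPeriod σ i with hr
    have hrpos : 0 < r :=
      Function.minimalPeriod_pos_of_mem_periodicPts (σ.injective.mem_periodicPts i)
    set c : Finset ι := (Finset.range r).image (fun k => (σ ^ k) i) with hc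
    have hiter : ∀ k : ℕ, (σ ^ k) i ∈ s := by
      intro k
      induction k with
      | zero => simpa using hi
      | succ k ihk =>
        rw [pow_succ', Equiv.Perm.mul_apply]; exact hst _ ihk
    have hcs : c ⊆ s := by
      intro j hj
      obtain ⟨k, -, rfl⟩ := Finset.mem_image.1 hj
      exact hiter k
    have hic : i ∈ c := Finset.mem_image.2 ⟨0, Finset.mem_range.2 hrpos, by simp⟩
    have hper : (σ ^ r) i = i := by
      have := Function.isPeriodicPt_minimalPeriod σ i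
      rw [← Equiv.Perm.iterate_eq_pow]; exact this
    have hsum_c : ∑ j ∈ c, g j = 0 := by
      rw [hc, Finset.sum_image]
      · exact h i
      · intro a ha b hb hab
        have := Function.iterate_injOn_Iio_minimalPeriod (f := σ) (x := i)
        apply this (Finset.mem_range.1 (Finset.mem_coe.1 ha))
          (Finset.mem_range.1 (Finset.mem_coe.1 hb))
        simpa [Equiv.Perm.iterate_eq_pow] using hab
    have hst' : ∀ j ∈ s \ c, σ j ∈ s \ c := by
      intro j hj
      rw [Finset.mem_sdiff] at hj ⊢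
      refine ⟨hst j hj.1, fun hσ => hj.2 ?_⟩
      obtain ⟨k, hk, hkj⟩ := Finset.mem_image.1 hσ
      rcases k with _ | k
      · -- `σ j = i = σ (σ ^ (r - 1) i)`
        refine Finset.mem_image.2 ⟨r - 1, Finset.mem_range.2 (by omega), ?_⟩
        apply σ.injective
        have e : σ ((σ ^ (r - 1)) i) = (σ ^ r) i := by
          rw [← Equiv.Perm.mul_apply, ← pow_succ']
          congr 2; omega
        rw [e, hper]
        simpa using hkj
      · refine Finset.mem_image.2 ⟨k, Finset.mem_range.2 (by have := Finset.mem_range.1 hk; omega), ?_⟩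
        apply σ.injective
        rw [← hkj, pow_succ', Equiv.Perm.mul_apply]
    have hcard : (s \ c).card < n := by
      rw [← hs]
      apply Finset.card_lt_card
      refine ⟨Finset.sdiff_subset, fun hsub => ?_⟩
      exact (Finset.mem_sdiff.1 (hsub hi)).2 hic
    have h2 := ih _ hcard (s \ c) rfl hst'
    rw [← Finset.sum_sdiff hcs, h2, hsum_c, add_zero]

/-- Combinatorial lemma: if the sum of `g` over every cycle of `σ` vanishes, so does the total
sum. -/
theorem sum_eq_zero_of_cycle_sums {ι M : Type*} [Fintype ι] [AddCommMonoid M] (σ : Equiv.Perm ι)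
    (g : ι → M)
    (h : ∀ i, ∑ k ∈ Finset.range (Function.minimalPeriod σ i), g ((σ ^ k) i) = 0) :
    ∑ i, g i = 0 :=
  kills_sum_stable σ g h _ Finset.univ rfl (fun _ _ => Finset.mem_univ _)

variable {N : ℕ} (H : Reps1 N)

private theorem Reps1.kills_perm_one : H.perm 1 = 1 := by
  ext j
  have := H.perm_mul 1 1 ((H.perm 1).symm j)
  rw [mul_one] at this
  simpa using this.symm

private theorem Reps1.kills_coc_one (i : H.ι) : H.coc 1 i = 1 := by
  have := H.coc_mul 1 1 i
  rw [mul_one, H.kills_perm_one] at this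
  simpa using this

theorem Reps1.perm_pow (γ : Gamma1 N) (k : ℕ) : H.perm (γ ^ k) = (H.perm γ) ^ k := by
  induction k with
  | zero => simpa using H.kills_perm_one
  | succ k ih =>
    ext i
    rw [pow_succ, H.perm_mul, ih, pow_succ', Equiv.Perm.mul_apply]

/-- cocycle relation for powers. -/
theorem Reps1.coc_pow {M : Type*} [AddCommGroup M] (φ : Additive (Gamma1 N) →+ M) (γ : Gamma1 N)
    (k : ℕ) (i : H.ι) :
    φ (Additive.ofMul (H.coc (γ ^ k) i)) =
      ∑ m ∈ Finset.range k, φ (Additive.ofMul (H.coc γ (((H.perm γ) ^ m) i))) := by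
  induction k with
  | zero => simp [H.kills_coc_one]
  | succ k ih =>
    rw [pow_succ, H.coc_mul, ofMul_mul, map_add, ih, Finset.sum_range_succ, H.perm_pow]

/-- if `perm (γ') i = i` then `coc γ' i` is conjugate to `γ'` in `GL₂(ℝ)`. -/
theorem Reps1.coc_conj (γ' : Gamma1 N) (i : H.ι) (hi : H.perm γ' i = i) :
    mapGL ℝ ((H.coc γ' i : Gamma1 N) : SL(2, ℤ)) =
      H.α i * mapGL ℝ (γ' : SL(2, ℤ)) * (H.α i)⁻¹ := by
  have h := H.rel γ' i
  rw [hi] at h
  rw [h, mul_assoc, mul_inv_cancel, mul_one]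

private theorem kills_trace_rec (A : Matrix (Fin 2) (Fin 2) ℤ) (hA : A.det = 1) (k : ℕ) :
    (A ^ (k + 2)).trace = A.trace * (A ^ (k + 1)).trace - (A ^ k).trace := by
  have hCH : A ^ 2 = A.trace • A - 1 := by
    rw [Matrix.det_fin_two] at hA
    rw [Matrix.trace_fin_two, pow_two]
    ext i j
    fin_cases i <;> fin_cases j <;>
      simp [Matrix.mul_apply, Fin.sum_univ_two, Matrix.smul_apply, -zsmul_eq_mul] <;>
      first | linear_combination (-1 : ℤ) * hA | linear_combination (0 : ℤ) * hA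
  rw [pow_add, hCH, mul_sub, mul_one, Matrix.trace_sub, Matrix.mul_smul, Matrix.trace_smul,
    ← pow_succ, smul_eq_mul]

private theorem kills_trace_pow (A : Matrix (Fin 2) (Fin 2) ℤ) (hA : A.det = 1) (e : ℤ)
    (he : e ^ 2 = 1) (ht : A.trace = 2 * e) (k : ℕ) :
    (A ^ k).trace = 2 * e ^ k ∧ (A ^ (k + 1)).trace = 2 * e ^ (k + 1) := by
  induction k with
  | zero => simp [ht]
  | succ k ih =>
    refine ⟨ih.2, ?_⟩
    rw [kills_trace_rec A hA k, ih.1, ih.2, ht]
    linear_combination (2 * e ^ k) * he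

/-- powers of parabolic (or `± 1`) elements are parabolic (or `± 1`). -/
theorem trace_sq_pow (g : SL(2, ℤ)) (hg : (g : Matrix (Fin 2) (Fin 2) ℤ).trace ^ 2 = 4) (k : ℕ) :
    ((g ^ k : SL(2, ℤ)) : Matrix (Fin 2) (Fin 2) ℤ).trace ^ 2 = 4 := by
  have h2 : (g : Matrix (Fin 2) (Fin 2) ℤ).trace = 2 ∨ (g : Matrix (Fin 2) (Fin 2) ℤ).trace = -2 := by
    have : ((g : Matrix (Fin 2) (Fin 2) ℤ).trace - 2) * ((g : Matrix (Fin 2) (Fin 2) ℤ).trace + 2) = 0 := by
      linear_combination hg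
    rcases mul_eq_zero.1 this with h | h
    · left; omega
    · right; omega
  obtain ⟨e, he, ht⟩ : ∃ e : ℤ, e ^ 2 = 1 ∧ (g : Matrix (Fin 2) (Fin 2) ℤ).trace = 2 * e := by
    rcases h2 with h | h
    · exact ⟨1, by norm_num, by rw [h]; norm_num⟩
    · exact ⟨-1, by norm_num, by rw [h]; norm_num⟩
  have h := (kills_trace_pow (g : Matrix (Fin 2) (Fin 2) ℤ) g.det_coe e he ht k).1
  rw [Matrix.SpecialLinearGroup.coe_pow, h, mul_pow, ← pow_mul, mul_comm k 2, pow_mul, he, one_pow]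
  norm_num

/-- general form: a class of elements stable under powers and `GL₂(ℝ)`-conjugation. -/
private theorem Reps1.kills_aux {M : Type*} [AddCommGroup M] (φ : Additive (Gamma1 N) →+ M)
    (P : Gamma1 N → Prop) (hφ : ∀ γ, P γ → φ (Additive.ofMul γ) = 0)
    (hpow : ∀ γ (k : ℕ), P γ → P (γ ^ k))
    (hconj : ∀ (γ γ' : Gamma1 N) (a : GL (Fin 2) ℝ),
      mapGL ℝ (γ' : SL(2, ℤ)) = a * mapGL ℝ (γ : SL(2, ℤ)) * a⁻¹ → P γ → P γ')
    (γ : Gamma1 N) (hγ : P γ) : H.op M φ (Additive.ofMul γ) = 0 := by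
  rw [Reps1.op_apply]
  apply sum_eq_zero_of_cycle_sums (H.perm γ)
  intro i
  rw [← H.coc_pow φ γ]
  apply hφ
  refine hconj (γ ^ Function.minimalPeriod (H.perm γ) i) _ (H.α i) (H.coc_conj _ i ?_)
    (hpow _ _ hγ)
  rw [H.perm_pow, ← Equiv.Perm.iterate_eq_pow]
  exact Function.isPeriodicPt_minimalPeriod _ i

private theorem kills_trace_conj (g g' : SL(2, ℤ)) (a : GL (Fin 2) ℝ)
    (h : mapGL ℝ g' = a * mapGL ℝ g * a⁻¹) :
    (g' : Matrix (Fin 2) (Fin 2) ℤ).trace = (g : Matrix (Fin 2) (Fin 2) ℤ).trace := by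
  have h1 : ((mapGL ℝ g' : GL (Fin 2) ℝ) : Matrix (Fin 2) (Fin 2) ℝ).trace =
      ((mapGL ℝ g : GL (Fin 2) ℝ) : Matrix (Fin 2) (Fin 2) ℝ).trace := by
    rw [h, Units.val_mul, Units.val_mul, Matrix.trace_mul_comm, ← mul_assoc, ← Units.val_mul,
      inv_mul_cancel, Units.val_one, one_mul]
  rw [mapGL_coe_matrix, mapGL_coe_matrix] at h1
  simp only [Matrix.trace_fin_two, Matrix.SpecialLinearGroup.map_apply_coe, RingHom.mapMatrix_apply,
    Matrix.map_apply, algebraMap_int_eq, eq_intCast] at h1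
  rw [Matrix.trace_fin_two, Matrix.trace_fin_two]
  exact_mod_cast h1

private theorem kills_finOrder_conj (g g' : SL(2, ℤ)) (a : GL (Fin 2) ℝ)
    (h : mapGL ℝ g' = a * mapGL ℝ g * a⁻¹) (hg : IsOfFinOrder g) : IsOfFinOrder g' := by
  rw [isOfFinOrder_iff_pow_eq_one] at hg ⊢
  obtain ⟨n, hn, hgn⟩ := hg
  refine ⟨n, hn, ?_⟩
  apply mapGL_injective (S := ℝ)
  rw [map_pow, h, conj_pow, ← map_pow, hgn, map_one, mul_one, mul_inv_cancel]

/-- MAIN STATEMENT of this file. -/
theorem Reps1.op_kills {M : Type*} [AddCommGroup M] (φ : Additive (Gamma1 N) →+ M)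
    (hφ : ∀ γ : Gamma1 N, (IsOfFinOrder (γ : SL(2, ℤ)) ∨
      ((γ : SL(2, ℤ)) : Matrix (Fin 2) (Fin 2) ℤ).trace ^ 2 = 4) → φ (Additive.ofMul γ) = 0)
    (γ : Gamma1 N) (hγ : IsOfFinOrder (γ : SL(2, ℤ)) ∨
      ((γ : SL(2, ℤ)) : Matrix (Fin 2) (Fin 2) ℤ).trace ^ 2 = 4) :
    H.op M φ (Additive.ofMul γ) = 0 := by
  refine H.kills_aux φ (fun γ => IsOfFinOrder (γ : SL(2, ℤ)) ∨
      ((γ : SL(2, ℤ)) : Matrix (Fin 2) (Fin 2) ℤ).trace ^ 2 = 4) hφ ?_ ?_ γ hγ
  · rintro γ k (h | h)
    · left; rw [Subgroup.coe_pow]; exact h.pow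
    · right; rw [Subgroup.coe_pow]; exact trace_sq_pow _ h k
  · rintro γ γ' a hc (h | h)
    · left; exact kills_finOrder_conj _ _ a hc h
    · right; rw [kills_trace_conj _ _ a hc]; exact h

/-- the parabolic part alone (used for `parabolicHoms`). -/
theorem Reps1.op_isParabolicHom {M : Type*} [AddCommGroup M] (φ : Additive (Gamma1 N) →+ M)
    (hφ : ModularCurve.Period.IsParabolicHom (Gamma1 N) φ) :
    ModularCurve.Period.IsParabolicHom (Gamma1 N) (H.op M φ) := by
  intro γ hγ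
  refine H.kills_aux φ (fun γ =>
      ((γ : SL(2, ℤ)) : Matrix (Fin 2) (Fin 2) ℤ).trace ^ 2 = 4) hφ ?_ ?_ γ hγ
  · intro γ k h
    rw [Subgroup.coe_pow]; exact trace_sq_pow _ h k
  · intro γ γ' a hc h
    rw [kills_trace_conj _ _ a hc]; exact h

end Fermat.Agent.G1.B
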